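/-
DS / Hecke operators for `Γ₁(M)`, part 1: the coset operators `T_p` (`p ∤ M` prime) and the
diamond operators `⟨d⟩` on homomorphisms `Γ₁(M) → A`, built on top of the `Γ₀` machinery of
`JT3/T2/Coset.lean`.

Representatives of `Γ₁(M) \ Γ₁(M) diag(1,p) Γ₁(M)`: `β_j = [[1,j],[0,p]]` (`j ∈ 𝔽_p`) and
`β_∞ = σ_p · diag(p,1)` with `σ_p ∈ Γ₀(M)`, `σ_p ≡ [[p⁻¹,*],[0,p]] mod M` (Diamond–Shurman 5.2.1).
With `s_j = 1`, `s_∞ = σ_p`, the `Γ₁`-cocycle is `s_x · c_x(γ) · s_{x⋆γ}⁻¹` (`c` the `Γ₀`-cocycle); it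
lies in `Γ₁(M)` because the lower right entry mod `M` is a character of `Γ₀(M)` compatible with
the representatives.  Prefix `g1t_`.
-/
import Mathlib
import Fermat.Agent.JT3.T2.Comm

set_option autoImplicit false
set_option linter.unusedSectionVars false

noncomputable section

open CongruenceSubgroup Matrix.SpecialLinearGroup ModularForm
open P2MW.S_ModularForm_heckeT_slash_eq_self_of_mem_Gamma0.ModularForm.HeckeSlashInvariance
open Fermat.Agent.JT3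
open scoped MatrixGroups
open OnePoint

namespace Fermat.Agent.DS

variable {M : ℕ}

/-! ### The nebentypus character of `Γ₀(M)` -/

/-- the lower right entry mod `M`, as a character `Γ₀(M) → (ℤ/M)ˣ` -/
def g1t_chi (M : ℕ) : Gamma0 M →* (ZMod M)ˣ := (Gamma0Map M).toHomUnits

theorem g1t_chi_coe (γ : Gamma0 M) :
    ((g1t_chi M γ : (ZMod M)ˣ) : ZMod M) = (((γ : SL(2, ℤ)) 1 1 : ℤ) : ZMod M) := rfl

theorem g1t_mem_Gamma1_iff (γ : Gamma0 M) : (γ : SL(2, ℤ)) ∈ Gamma1 M ↔ g1t_chi M γ = 1 := by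
  rw [Gamma1_mem, ← Gamma1_to_Gamma0_mem, Gamma1_mem']
  constructor
  · intro h
    exact Units.ext h
  · intro h
    exact congrArg Units.val h

/-- the inclusion `Γ₁(M) → Γ₀(M)` -/
def g1t_incl (M : ℕ) : Gamma1 M →* Gamma0 M := Subgroup.inclusion (Gamma1_in_Gamma0 M)

@[simp] theorem g1t_incl_coe (γ : Gamma1 M) : ((g1t_incl M γ : Gamma0 M) : SL(2, ℤ)) = γ := rfl

theorem g1t_chi_incl (γ : Gamma1 M) : g1t_chi M (g1t_incl M γ) = 1 :=
  (g1t_mem_Gamma1_iff _).1 γ.2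

/-- an element of `Γ₀(M)` with trivial character, as an element of `Γ₁(M)` -/
def g1t_ofChi (γ : Gamma0 M) (h : g1t_chi M γ = 1) : Gamma1 M :=
  ⟨(γ : SL(2, ℤ)), (g1t_mem_Gamma1_iff γ).2 h⟩

@[simp] theorem g1t_ofChi_coe (γ : Gamma0 M) (h : g1t_chi M γ = 1) :
    ((g1t_ofChi γ h : Gamma1 M) : SL(2, ℤ)) = γ := rfl

theorem g1t_incl_ofChi (γ : Gamma0 M) (h : g1t_chi M γ = 1) : g1t_incl M (g1t_ofChi γ h) = γ :=
  Subtype.ext rfl

theorem g1t_ofChi_incl (γ : Gamma1 M) : g1t_ofChi (g1t_incl M γ) (g1t_chi_incl γ) = γ :=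
  Subtype.ext rfl

/-! ### Elements of `Γ₀(M)` with prescribed character -/

theorem g1t_exists_entry (d : ℤ) (h : IsCoprime d (M : ℤ)) :
    ∃ σ : Gamma0 M, (σ : SL(2, ℤ)) 1 1 = d := by
  obtain ⟨a, b, hab⟩ := h
  have hdet : (!![a, -b; (M : ℤ), d] : Matrix (Fin 2) (Fin 2) ℤ).det = 1 := by
    rw [Matrix.det_fin_two_of]
    linarith
  obtain ⟨σ, hσ⟩ : ∃ σ : SL(2, ℤ), (σ : Matrix (Fin 2) (Fin 2) ℤ) = !![a, -b; (M : ℤ), d] :=
    ⟨⟨_, hdet⟩, rfl⟩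
  have hmem : σ ∈ Gamma0 M := by
    rw [Gamma0_mem, hσ]
    simp
  refine ⟨⟨σ, hmem⟩, ?_⟩
  show (σ : Matrix (Fin 2) (Fin 2) ℤ) 1 1 = d
  rw [hσ]
  simp

theorem g1t_exists_sigma [NeZero M] (d : (ZMod M)ˣ) : ∃ σ : Gamma0 M, g1t_chi M σ = d := by
  have hcop : IsCoprime (((d : ZMod M).val : ℕ) : ℤ) (M : ℤ) :=
    Nat.isCoprime_iff_coprime.2 (ZMod.val_coe_unit_coprime d)
  obtain ⟨σ, hσ⟩ := g1t_exists_entry (M := M) _ hcop
  refine ⟨σ, Units.ext ?_⟩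
  rw [g1t_chi_coe, hσ, Int.cast_natCast, ZMod.natCast_zmod_val]

/-- a chosen `σ_d ∈ Γ₀(M)` with lower right entry `≡ d` -/
def g1t_sigma [NeZero M] (d : (ZMod M)ˣ) : Gamma0 M := (g1t_exists_sigma d).choose

theorem g1t_chi_sigma [NeZero M] (d : (ZMod M)ˣ) : g1t_chi M (g1t_sigma d) = d :=
  (g1t_exists_sigma d).choose_spec

/-! ### Conjugation by `Γ₀(M)` on `Γ₁(M)` -/

/-- conjugation by `σ ∈ Γ₀(M)` as an endomorphism of `Γ₁(M)` -/
def g1t_conj (σ : Gamma0 M) : Gamma1 M →* Gamma1 M where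
  toFun γ := g1t_ofChi (σ * g1t_incl M γ * σ⁻¹) (by
    rw [map_mul, map_mul, map_inv, g1t_chi_incl, mul_one, mul_inv_cancel])
  map_one' := by
    apply Subtype.ext
    simp
  map_mul' γ γ' := by
    apply Subtype.ext
    simp [mul_assoc]

theorem g1t_conj_coe (σ : Gamma0 M) (γ : Gamma1 M) :
    ((g1t_conj σ γ : Gamma1 M) : SL(2, ℤ)) = (σ : SL(2, ℤ)) * γ * (σ : SL(2, ℤ))⁻¹ := rfl

theorem g1t_incl_conj (σ : Gamma0 M) (γ : Gamma1 M) :
    g1t_incl M (g1t_conj σ γ) = σ * g1t_incl M γ * σ⁻¹ := Subtype.ext rfl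

/-- conjugation by an element of `Γ₁(M)` is invisible to characters -/
theorem g1t_hom_conj_of_chi_eq_one {A : Type*} [CommGroup A] (χ : Gamma1 M →* A) (σ : Gamma0 M)
    (h : g1t_chi M σ = 1) (γ : Gamma1 M) : χ (g1t_conj σ γ) = χ γ := by
  have h1 : g1t_conj σ γ = g1t_ofChi σ h * γ * (g1t_ofChi σ h)⁻¹ := Subtype.ext rfl
  rw [h1, map_mul, map_mul, map_inv, mul_comm (χ _) (χ γ), mul_inv_cancel_right]

theorem g1t_hom_conj_congr {A : Type*} [CommGroup A] (χ : Gamma1 M →* A) (σ σ' : Gamma0 M)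
    (h : g1t_chi M σ = g1t_chi M σ') (γ : Gamma1 M) : χ (g1t_conj σ γ) = χ (g1t_conj σ' γ) := by
  have h1 : g1t_conj σ γ = g1t_conj (σ * σ'⁻¹) (g1t_conj σ' γ) := by
    apply Subtype.ext
    rw [g1t_conj_coe, g1t_conj_coe, g1t_conj_coe]
    simp [mul_assoc]
  rw [h1]
  exact g1t_hom_conj_of_chi_eq_one χ _ (by rw [map_mul, map_inv, h, mul_inv_cancel]) _

/-! ### Lower right entries of the representatives -/

section coset

variable {p : ℕ} [Fact p.Prime]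

/-- `p` as a unit mod `M` -/
def g1t_pU (hpM : ¬ p ∣ M) : (ZMod M)ˣ :=
  ZMod.unitOfCoprime p ((Nat.Prime.coprime_iff_not_dvd Fact.out).2 hpM)

theorem g1t_pU_coe (hpM : ¬ p ∣ M) : ((g1t_pU hpM : (ZMod M)ˣ) : ZMod M) = (p : ZMod M) :=
  ZMod.coe_unitOfCoprime _ _

/-- the lower right entry of `heckeRep p x` mod `M`: `1` at `∞`, `p` at the finite points -/
def g1t_D (hpM : ¬ p ∣ M) (x : OnePoint (ZMod p)) : (ZMod M)ˣ := x.elim 1 fun _ => g1t_pU hpM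

@[simp] theorem g1t_D_infty (hpM : ¬ p ∣ M) : g1t_D hpM (∞ : OnePoint (ZMod p)) = 1 := rfl

@[simp] theorem g1t_D_coe (hpM : ¬ p ∣ M) (j : ZMod p) :
    g1t_D hpM (j : OnePoint (ZMod p)) = g1t_pU hpM := rfl

theorem g1t_D_val (hpM : ¬ p ∣ M) (x : OnePoint (ZMod p)) :
    ((g1t_D hpM x : (ZMod M)ˣ) : ZMod M) = ((t2k_d p x : ℕ) : ZMod M) := by
  induction x using OnePoint.rec with
  | infty => simp
  | coe j => simp [g1t_pU_coe]

/-- lower right entries in `u · γ = γ' · u'` for upper triangular integral `u, u'` -/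
theorem g1t_entry (γ γ' : Gamma0 M) (a b d a' b' d' : ℕ) (u u' : GL (Fin 2) ℝ)
    (hu : (u : Matrix (Fin 2) (Fin 2) ℝ) = !![(a : ℝ), (b : ℝ); 0, (d : ℝ)])
    (hu' : (u' : Matrix (Fin 2) (Fin 2) ℝ) = !![(a' : ℝ), (b' : ℝ); 0, (d' : ℝ)])
    (h : u * mapGL ℝ (γ : SL(2, ℤ)) = mapGL ℝ (γ' : SL(2, ℤ)) * u') :
    ((d : ℕ) : ZMod M) * (g1t_chi M γ : ZMod M) = (g1t_chi M γ' : ZMod M) * ((d' : ℕ) : ZMod M) := by
  have hm : (u : Matrix (Fin 2) (Fin 2) ℝ) * (mapGL ℝ (γ : SL(2, ℤ)) : Matrix (Fin 2) (Fin 2) ℝ) =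
      (mapGL ℝ (γ' : SL(2, ℤ)) : Matrix (Fin 2) (Fin 2) ℝ) * (u' : Matrix (Fin 2) (Fin 2) ℝ) := by
    rw [← Matrix.GeneralLinearGroup.coe_mul, h]; rfl
  rw [hu, hu'] at hm
  have e11 := congrFun (congrFun hm 1) 1
  simp [Matrix.mul_apply, Fin.sum_univ_two] at e11
  have e11' : (d : ℤ) * (γ : SL(2, ℤ)) 1 1 =
      (γ' : SL(2, ℤ)) 1 0 * b' + (γ' : SL(2, ℤ)) 1 1 * d' := by exact_mod_cast e11
  have h3 := congrArg (Int.cast : ℤ → ZMod M) e11'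
  push_cast at h3
  rw [Gamma0_mem.mp γ'.2, zero_mul, zero_add] at h3
  rw [g1t_chi_coe, g1t_chi_coe]
  exact h3

/-- **the character of the `Γ₀`-cocycle** -/
theorem g1t_chi_coc (hpM : ¬ p ∣ M) (x : OnePoint (ZMod p)) (γ : Gamma0 M) :
    g1t_D hpM x * g1t_chi M γ =
      g1t_chi M (t2c_coc hpM x γ) * g1t_D hpM (t2c_act (γ : SL(2, ℤ)) x) := by
  have hp : p ≠ 0 := (Fact.out : p.Prime).ne_zero
  apply Units.ext
  rw [Units.val_mul, Units.val_mul, g1t_D_val, g1t_D_val]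
  exact g1t_entry γ _ _ _ _ _ _ _ _ _ (t2k_val_heckeRep hp x) (t2k_val_heckeRep hp _)
    (t2c_coc_spec hpM x γ)

end coset

/-! ### Twisting the `Γ₀`-cocycle by a family of elements of `Γ₀(M)` -/

section twist

variable {p : ℕ} [Fact p.Prime]

/-- the `Γ₀`-cocycle twisted by a family `s` (a cohomologous cocycle) -/
def g1t_cocS (hpM : ¬ p ∣ M) (s : OnePoint (ZMod p) → Gamma0 M) (x : OnePoint (ZMod p))
    (γ : Gamma0 M) : Gamma0 M :=
  s x * t2c_coc hpM x γ * (s (t2c_act (γ : SL(2, ℤ)) x))⁻¹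

theorem g1t_cocS_mul (hpM : ¬ p ∣ M) (s : OnePoint (ZMod p) → Gamma0 M) (x : OnePoint (ZMod p))
    (γ γ' : Gamma0 M) :
    g1t_cocS hpM s x (γ * γ') =
      g1t_cocS hpM s x γ * g1t_cocS hpM s (t2c_act (γ : SL(2, ℤ)) x) γ' := by
  simp only [g1t_cocS, t2c_coc_mul, Subgroup.coe_mul, t2c_act_mul]
  group

theorem g1t_cocS_one (hpM : ¬ p ∣ M) (s : OnePoint (ZMod p) → Gamma0 M) (x : OnePoint (ZMod p)) :
    g1t_cocS hpM s x 1 = 1 := by
  simp only [g1t_cocS, t2c_coc_one, Subgroup.coe_one, t2c_act_one]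
  group

theorem g1t_cocS_spec (hpM : ¬ p ∣ M) (s : OnePoint (ZMod p) → Gamma0 M) (x : OnePoint (ZMod p))
    (γ : Gamma0 M) :
    (mapGL ℝ ((s x : Gamma0 M) : SL(2, ℤ)) * heckeRep p x) * mapGL ℝ (γ : SL(2, ℤ)) =
      mapGL ℝ ((g1t_cocS hpM s x γ : Gamma0 M) : SL(2, ℤ)) *
        (mapGL ℝ ((s (t2c_act (γ : SL(2, ℤ)) x) : Gamma0 M) : SL(2, ℤ)) *
          heckeRep p (t2c_act (γ : SL(2, ℤ)) x)) := by
  rw [mul_assoc, t2c_coc_spec hpM x γ, g1t_cocS, Subgroup.coe_mul, Subgroup.coe_mul,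
    Subgroup.coe_inv, map_mul, map_mul, map_inv]
  group

/-- the twisted cocycle of a conjugate -/
theorem g1t_cocS_conj (hpM : ¬ p ∣ M) (s : OnePoint (ZMod p) → Gamma0 M) (x : OnePoint (ZMod p))
    (σ γ : Gamma0 M) :
    g1t_cocS hpM s x (σ * γ * σ⁻¹) =
      g1t_cocS hpM s x σ * g1t_cocS hpM s (t2c_act (σ : SL(2, ℤ)) x) γ *
        (g1t_cocS hpM s (t2c_act ((σ * γ * σ⁻¹ : Gamma0 M) : SL(2, ℤ)) x) σ)⁻¹ := by
  rw [eq_mul_inv_iff_mul_eq, ← g1t_cocS_mul, inv_mul_cancel_right, g1t_cocS_mul]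

/-- an admissible family makes the twisted cocycle preserve the character -/
theorem g1t_chi_cocS (hpM : ¬ p ∣ M) (s : OnePoint (ZMod p) → Gamma0 M) (e : (ZMod M)ˣ)
    (hs : ∀ x, g1t_chi M (s x) * g1t_D hpM x = e) (x : OnePoint (ZMod p)) (γ : Gamma0 M) :
    g1t_chi M (g1t_cocS hpM s x γ) = g1t_chi M γ := by
  have h1 := g1t_chi_coc hpM x γ
  have h2 := hs x
  have h3 := hs (t2c_act (γ : SL(2, ℤ)) x)
  rw [g1t_cocS, map_mul, map_mul, map_inv, mul_inv_eq_iff_eq_mul]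
  apply mul_right_cancel (b := g1t_D hpM x * g1t_D hpM (t2c_act (γ : SL(2, ℤ)) x))
  calc g1t_chi M (s x) * g1t_chi M (t2c_coc hpM x γ) *
        (g1t_D hpM x * g1t_D hpM (t2c_act (γ : SL(2, ℤ)) x))
      = (g1t_chi M (s x) * g1t_D hpM x) *
          (g1t_chi M (t2c_coc hpM x γ) * g1t_D hpM (t2c_act (γ : SL(2, ℤ)) x)) :=
        mul_mul_mul_comm _ _ _ _
    _ = (g1t_D hpM x * g1t_chi M γ) *
          (g1t_chi M (s (t2c_act (γ : SL(2, ℤ)) x)) * g1t_D hpM (t2c_act (γ : SL(2, ℤ)) x)) := by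
        rw [h2, ← h1, h3, mul_comm]
    _ = g1t_chi M γ * g1t_chi M (s (t2c_act (γ : SL(2, ℤ)) x)) *
          (g1t_D hpM x * g1t_D hpM (t2c_act (γ : SL(2, ℤ)) x)) := by
        rw [mul_comm (g1t_D hpM x) (g1t_chi M γ)]
        exact mul_mul_mul_comm _ _ _ _

end twist

/-! ### A telescoping lemma -/

/-- **telescoping with a twist**: if `g x = w x · h x · (w (π x))⁻¹` with all `w x` of character
`chi σ`, then `∏ χ(g x) = ∏ χ(σ h x σ⁻¹)` -/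
theorem g1t_prod_conj {A : Type*} [CommGroup A] (χ : Gamma1 M →* A) (σ : Gamma0 M) {X : Type*}
    [Fintype X] (π : Equiv.Perm X) (w : X → Gamma0 M)
    (hw : ∀ x, g1t_chi M (w x) = g1t_chi M σ) (h g : X → Gamma1 M)
    (hg : ∀ x, g1t_incl M (g x) = w x * g1t_incl M (h x) * (w (π x))⁻¹) :
    ∏ x, χ (g x) = ∏ x, χ (g1t_conj σ (h x)) := by
  have hv : ∀ x, g1t_chi M (w x * σ⁻¹) = 1 := fun x => by
    rw [map_mul, map_inv, hw, mul_inv_cancel]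
  set v : X → Gamma1 M := fun x => g1t_ofChi (w x * σ⁻¹) (hv x) with hvdef
  have h1 : ∀ x, g x = v x * g1t_conj σ (h x) * (v (π x))⁻¹ := by
    intro x
    have h2 : g1t_incl M (g x) = g1t_incl M (v x * g1t_conj σ (h x) * (v (π x))⁻¹) := by
      rw [hg x, map_mul, map_mul, map_inv, g1t_incl_conj, hvdef, g1t_incl_ofChi, g1t_incl_ofChi]
      group
    exact Subtype.ext (congrArg (fun t : Gamma0 M => (t : SL(2, ℤ))) h2)
  have h3 : ∀ x, χ (g x) = χ (v x) * χ (g1t_conj σ (h x)) * (χ (v (π x)))⁻¹ := by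
    intro x
    rw [h1 x, map_mul, map_mul, map_inv]
  rw [Finset.prod_congr rfl fun x _ => h3 x, Finset.prod_mul_distrib, Finset.prod_mul_distrib,
    Equiv.prod_comp π fun x => (χ (v x))⁻¹, Finset.prod_inv_distrib, mul_right_comm,
    mul_inv_cancel, one_mul]

/-! ### The `Γ₁(M)`-cocycle of an admissible family -/

section gamma1

variable {p : ℕ} [Fact p.Prime]

/-- a family `s` is admissible (of constant `e`) if `chi (s x) · D x = e` for all `x` -/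
def g1t_Adm (hpM : ¬ p ∣ M) (s : OnePoint (ZMod p) → Gamma0 M) (e : (ZMod M)ˣ) : Prop :=
  ∀ x, g1t_chi M (s x) * g1t_D hpM x = e

/-- the `Γ₁(M)`-valued cocycle attached to an admissible family -/
def g1t_cocG (hpM : ¬ p ∣ M) {s : OnePoint (ZMod p) → Gamma0 M} {e : (ZMod M)ˣ}
    (hs : g1t_Adm hpM s e) (x : OnePoint (ZMod p)) (γ : Gamma1 M) : Gamma1 M :=
  g1t_ofChi (g1t_cocS hpM s x (g1t_incl M γ)) (by
    rw [g1t_chi_cocS hpM s e hs, g1t_chi_incl])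

theorem g1t_incl_cocG (hpM : ¬ p ∣ M) {s : OnePoint (ZMod p) → Gamma0 M} {e : (ZMod M)ˣ}
    (hs : g1t_Adm hpM s e) (x : OnePoint (ZMod p)) (γ : Gamma1 M) :
    g1t_incl M (g1t_cocG hpM hs x γ) = g1t_cocS hpM s x (g1t_incl M γ) := g1t_incl_ofChi _ _

theorem g1t_incl_injective : Function.Injective (g1t_incl M) := by
  intro γ γ' h
  exact Subtype.ext (congrArg (fun t : Gamma0 M => (t : SL(2, ℤ))) h)

theorem g1t_cocG_mul (hpM : ¬ p ∣ M) {s : OnePoint (ZMod p) → Gamma0 M} {e : (ZMod M)ˣ}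
    (hs : g1t_Adm hpM s e) (x : OnePoint (ZMod p)) (γ γ' : Gamma1 M) :
    g1t_cocG hpM hs x (γ * γ') =
      g1t_cocG hpM hs x γ * g1t_cocG hpM hs (t2c_act (γ : SL(2, ℤ)) x) γ' := by
  apply g1t_incl_injective
  rw [map_mul, g1t_incl_cocG, g1t_incl_cocG, g1t_incl_cocG, map_mul, g1t_cocS_mul]
  rfl

theorem g1t_cocG_one (hpM : ¬ p ∣ M) {s : OnePoint (ZMod p) → Gamma0 M} {e : (ZMod M)ˣ}
    (hs : g1t_Adm hpM s e) (x : OnePoint (ZMod p)) : g1t_cocG hpM hs x 1 = 1 := by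
  apply g1t_incl_injective
  rw [g1t_incl_cocG, map_one]
  exact g1t_cocS_one hpM s x

/-- the representatives `s_x · heckeRep p x` -/
def g1t_repS (s : OnePoint (ZMod p) → Gamma0 M) (x : OnePoint (ZMod p)) : GL (Fin 2) ℝ :=
  mapGL ℝ ((s x : Gamma0 M) : SL(2, ℤ)) * heckeRep p x

theorem g1t_cocG_spec (hpM : ¬ p ∣ M) {s : OnePoint (ZMod p) → Gamma0 M} {e : (ZMod M)ˣ}
    (hs : g1t_Adm hpM s e) (x : OnePoint (ZMod p)) (γ : Gamma1 M) :
    g1t_repS s x * mapGL ℝ (γ : SL(2, ℤ)) =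
      mapGL ℝ ((g1t_cocG hpM hs x γ : Gamma1 M) : SL(2, ℤ)) *
        g1t_repS s (t2c_act (γ : SL(2, ℤ)) x) :=
  g1t_cocS_spec hpM s x (g1t_incl M γ)

section mul

variable {A : Type*} [CommMonoid A]

/-- the coset operator of an admissible family on `Hom(Γ₁(M), A)` -/
def g1t_TSfun (hpM : ¬ p ∣ M) {s : OnePoint (ZMod p) → Gamma0 M} {e : (ZMod M)ˣ}
    (hs : g1t_Adm hpM s e) (χ : Gamma1 M →* A) : Gamma1 M →* A where
  toFun γ := ∏ x : OnePoint (ZMod p), χ (g1t_cocG hpM hs x γ)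
  map_one' := by simp [g1t_cocG_one]
  map_mul' γ γ' := by
    simp only [g1t_cocG_mul, map_mul, Finset.prod_mul_distrib]
    congr 1
    exact Equiv.prod_comp (t2c_perm (γ : SL(2, ℤ))) fun x => χ (g1t_cocG hpM hs x γ')

/-- the coset operator of an admissible family, multiplicative in `χ` -/
def g1t_TS (hpM : ¬ p ∣ M) {s : OnePoint (ZMod p) → Gamma0 M} {e : (ZMod M)ˣ}
    (hs : g1t_Adm hpM s e) : (Gamma1 M →* A) →* (Gamma1 M →* A) where
  toFun := g1t_TSfun hpM hs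
  map_one' := by
    ext γ
    simp [g1t_TSfun]
  map_mul' χ χ' := by
    ext γ
    simp [g1t_TSfun, Finset.prod_mul_distrib]

theorem g1t_TS_apply (hpM : ¬ p ∣ M) {s : OnePoint (ZMod p) → Gamma0 M} {e : (ZMod M)ˣ}
    (hs : g1t_Adm hpM s e) (χ : Gamma1 M →* A) (γ : Gamma1 M) :
    g1t_TS hpM hs χ γ = ∏ x : OnePoint (ZMod p), χ (g1t_cocG hpM hs x γ) := rfl

theorem g1t_TS_comp {A' : Type*} [CommMonoid A'] (hpM : ¬ p ∣ M)
    {s : OnePoint (ZMod p) → Gamma0 M} {e : (ZMod M)ˣ} (hs : g1t_Adm hpM s e) (φ : A →* A')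
    (χ : Gamma1 M →* A) : g1t_TS hpM hs (φ.comp χ) = φ.comp (g1t_TS hpM hs χ) := by
  ext γ
  simp [g1t_TS_apply, map_prod]

/-- precomposition with the conjugation by `σ ∈ Γ₀(M)` -/
def g1t_conjOp (σ : Gamma0 M) : (Gamma1 M →* A) →* (Gamma1 M →* A) where
  toFun χ := χ.comp (g1t_conj σ)
  map_one' := rfl
  map_mul' _ _ := rfl

theorem g1t_conjOp_apply (σ : Gamma0 M) (χ : Gamma1 M →* A) (γ : Gamma1 M) :
    g1t_conjOp σ χ γ = χ (g1t_conj σ γ) := rfl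

theorem g1t_conjOp_comp {A' : Type*} [CommMonoid A'] (σ : Gamma0 M) (φ : A →* A')
    (χ : Gamma1 M →* A) : g1t_conjOp σ (φ.comp χ) = φ.comp (g1t_conjOp σ χ) := rfl

end mul

end gamma1

/-! ### Conjugation operators and coset operators commute; independence of the family -/

section comm

variable {p : ℕ} [Fact p.Prime] {A : Type*} [CommGroup A]

theorem g1t_conjOp_congr (σ σ' : Gamma0 M) (h : g1t_chi M σ = g1t_chi M σ') (χ : Gamma1 M →* A) :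
    g1t_conjOp σ χ = g1t_conjOp σ' χ :=
  MonoidHom.ext fun γ => g1t_hom_conj_congr χ σ σ' h γ

theorem g1t_conjOp_of_chi_eq_one (σ : Gamma0 M) (h : g1t_chi M σ = 1) (χ : Gamma1 M →* A) :
    g1t_conjOp σ χ = χ :=
  MonoidHom.ext fun γ => g1t_hom_conj_of_chi_eq_one χ σ h γ

theorem g1t_conj_conj (σ σ' : Gamma0 M) (γ : Gamma1 M) :
    g1t_conj σ (g1t_conj σ' γ) = g1t_conj (σ * σ') γ := by
  apply Subtype.ext
  rw [g1t_conj_coe, g1t_conj_coe, g1t_conj_coe]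
  simp [mul_assoc]

theorem g1t_conjOp_mul {B : Type*} [CommMonoid B] (σ σ' : Gamma0 M) (χ : Gamma1 M →* B) :
    g1t_conjOp (σ * σ') χ = g1t_conjOp σ' (g1t_conjOp σ χ) := by
  ext γ
  rw [g1t_conjOp_apply, g1t_conjOp_apply, g1t_conjOp_apply, g1t_conj_conj]

/-- **coset operators commute with conjugation operators** -/
theorem g1t_TS_conjOp (hpM : ¬ p ∣ M) {s : OnePoint (ZMod p) → Gamma0 M} {e : (ZMod M)ˣ}
    (hs : g1t_Adm hpM s e) (σ : Gamma0 M) (χ : Gamma1 M →* A) :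
    g1t_TS hpM hs (g1t_conjOp σ χ) = g1t_conjOp σ (g1t_TS hpM hs χ) := by
  ext γ
  rw [g1t_conjOp_apply, g1t_TS_apply, g1t_TS_apply]
  have key := g1t_prod_conj χ σ
    (t2c_perm (((σ * g1t_incl M γ * σ⁻¹ : Gamma0 M) : Gamma0 M) : SL(2, ℤ)))
    (fun x => g1t_cocS hpM s x σ) (fun x => g1t_chi_cocS hpM s e hs x σ)
    (fun x => g1t_cocG hpM hs (t2c_act (σ : SL(2, ℤ)) x) γ)
    (fun x => g1t_cocG hpM hs x (g1t_conj σ γ))
    (fun x => by
      rw [g1t_incl_cocG, g1t_incl_cocG, g1t_incl_conj, g1t_cocS_conj]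
      rfl)
  rw [key]
  exact (Equiv.prod_comp (t2c_perm (σ : SL(2, ℤ)))
    fun x => χ (g1t_conj σ (g1t_cocG hpM hs x γ))).symm

/-- **change of the admissible family** = composition with a conjugation operator -/
theorem g1t_TS_family (hpM : ¬ p ∣ M) {s s' : OnePoint (ZMod p) → Gamma0 M} {e e' : (ZMod M)ˣ}
    (hs : g1t_Adm hpM s e) (hs' : g1t_Adm hpM s' e') (σ : Gamma0 M)
    (hσ : g1t_chi M σ * e = e') (χ : Gamma1 M →* A) :
    g1t_TS hpM hs' χ = g1t_TS hpM hs (g1t_conjOp σ χ) := by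
  ext γ
  rw [g1t_TS_apply, g1t_TS_apply]
  exact g1t_prod_conj χ σ (t2c_perm (γ : SL(2, ℤ))) (fun x => s' x * (s x)⁻¹)
    (fun x => by
      have h1 := hs x
      have h2 := hs' x
      rw [map_mul, map_inv, mul_inv_eq_iff_eq_mul]
      apply mul_right_cancel (b := g1t_D hpM x)
      rw [h2, mul_assoc, h1, hσ])
    (fun x => g1t_cocG hpM hs x γ) (fun x => g1t_cocG hpM hs' x γ)
    (fun x => by
      rw [g1t_incl_cocG, g1t_incl_cocG, g1t_cocS, g1t_cocS, t2c_perm_apply]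
      simp only [g1t_incl_coe]
      group)

end comm

/-! ### The operators `T_p` and `⟨d⟩` on `Hom(Γ₁(M), A)` -/

section ops

variable {p : ℕ} [Fact p.Prime] [NeZero M]

/-- the standard correcting elements: `σ_p` at `∞`, `1` at the finite points
(Diamond–Shurman 5.2.1: `β_j = [[1,j],[0,p]]`, `β_∞ = σ_p · diag(p,1)`) -/
def g1t_s (hpM : ¬ p ∣ M) (x : OnePoint (ZMod p)) : Gamma0 M :=
  x.elim (g1t_sigma (g1t_pU hpM)) fun _ => 1

@[simp] theorem g1t_s_infty (hpM : ¬ p ∣ M) :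
    g1t_s hpM (∞ : OnePoint (ZMod p)) = g1t_sigma (g1t_pU hpM) := rfl

@[simp] theorem g1t_s_coe (hpM : ¬ p ∣ M) (j : ZMod p) :
    g1t_s hpM (j : OnePoint (ZMod p)) = 1 := rfl

theorem g1t_s_adm (hpM : ¬ p ∣ M) : g1t_Adm hpM (g1t_s hpM) (g1t_pU hpM) := by
  intro x
  induction x using OnePoint.rec with
  | infty => simp [g1t_chi_sigma]
  | coe j => simp

/-- the `Γ₁(M)`-cocycle of `T_p` -/
def g1t_coc (hpM : ¬ p ∣ M) (x : OnePoint (ZMod p)) (γ : Gamma1 M) : Gamma1 M :=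
  g1t_cocG hpM (g1t_s_adm hpM) x γ

/-- the representatives of `Γ₁(M) \ Γ₁(M) diag(1,p) Γ₁(M)` -/
def g1t_rep (hpM : ¬ p ∣ M) (x : OnePoint (ZMod p)) : GL (Fin 2) ℝ := g1t_repS (g1t_s hpM) x

theorem g1t_rep_infty (hpM : ¬ p ∣ M) :
    g1t_rep hpM (∞ : OnePoint (ZMod p)) =
      mapGL ℝ ((g1t_sigma (g1t_pU hpM) : Gamma0 M) : SL(2, ℤ)) * heckeRep p ∞ := rfl

theorem g1t_rep_coe (hpM : ¬ p ∣ M) (j : ZMod p) :
    g1t_rep hpM (j : OnePoint (ZMod p)) = heckeRep p j := by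
  rw [g1t_rep, g1t_repS, g1t_s_coe, Subgroup.coe_one, map_one, one_mul]

theorem g1t_coc_spec (hpM : ¬ p ∣ M) (x : OnePoint (ZMod p)) (γ : Gamma1 M) :
    g1t_rep hpM x * mapGL ℝ (γ : SL(2, ℤ)) =
      mapGL ℝ ((g1t_coc hpM x γ : Gamma1 M) : SL(2, ℤ)) *
        g1t_rep hpM (t2c_act (γ : SL(2, ℤ)) x) :=
  g1t_cocG_spec hpM (g1t_s_adm hpM) x γ

theorem g1t_coc_mul (hpM : ¬ p ∣ M) (x : OnePoint (ZMod p)) (γ γ' : Gamma1 M) :
    g1t_coc hpM x (γ * γ') =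
      g1t_coc hpM x γ * g1t_coc hpM (t2c_act (γ : SL(2, ℤ)) x) γ' :=
  g1t_cocG_mul hpM (g1t_s_adm hpM) x γ γ'

theorem g1t_coc_one (hpM : ¬ p ∣ M) (x : OnePoint (ZMod p)) : g1t_coc hpM x 1 = 1 :=
  g1t_cocG_one hpM (g1t_s_adm hpM) x

section mul

variable {A : Type*} [CommMonoid A]

/-- **the Hecke operator `T_p`** on `Hom(Γ₁(M), A)`: `(T_p χ)(γ) = ∏_x χ(c_x(γ))` -/
def g1t_T (hpM : ¬ p ∣ M) : (Gamma1 M →* A) →* (Gamma1 M →* A) := g1t_TS hpM (g1t_s_adm hpM)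

theorem g1t_T_apply (hpM : ¬ p ∣ M) (χ : Gamma1 M →* A) (γ : Gamma1 M) :
    g1t_T hpM χ γ = ∏ x : OnePoint (ZMod p), χ (g1t_coc hpM x γ) := rfl

theorem g1t_T_comp {A' : Type*} [CommMonoid A'] (hpM : ¬ p ∣ M) (φ : A →* A')
    (χ : Gamma1 M →* A) : g1t_T hpM (φ.comp χ) = φ.comp (g1t_T hpM χ) :=
  g1t_TS_comp hpM _ φ χ

/-- **the diamond operator `⟨d⟩`** on `Hom(Γ₁(M), A)`: `(⟨d⟩χ)(γ) = χ(σ_d γ σ_d⁻¹)` -/
def g1t_diam (d : (ZMod M)ˣ) : (Gamma1 M →* A) →* (Gamma1 M →* A) := g1t_conjOp (g1t_sigma d)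

theorem g1t_diam_apply (d : (ZMod M)ˣ) (χ : Gamma1 M →* A) (γ : Gamma1 M) :
    g1t_diam d χ γ = χ (g1t_conj (g1t_sigma d) γ) := rfl

theorem g1t_diam_comp {A' : Type*} [CommMonoid A'] (d : (ZMod M)ˣ) (φ : A →* A')
    (χ : Gamma1 M →* A) : g1t_diam d (φ.comp χ) = φ.comp (g1t_diam d χ) := rfl

end mul

section grp

variable {A : Type*} [CommGroup A]

/-- the diamond operator may be computed with any `σ ∈ Γ₀(M)` of character `d` -/
theorem g1t_diam_eq (d : (ZMod M)ˣ) (σ : Gamma0 M) (h : g1t_chi M σ = d) (χ : Gamma1 M →* A) :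
    g1t_diam d χ = g1t_conjOp σ χ :=
  g1t_conjOp_congr _ _ (by rw [g1t_chi_sigma, h]) χ

theorem g1t_diam_one (χ : Gamma1 M →* A) : g1t_diam 1 χ = χ :=
  g1t_conjOp_of_chi_eq_one _ (g1t_chi_sigma 1) χ

theorem g1t_diam_mul (d d' : (ZMod M)ˣ) (χ : Gamma1 M →* A) :
    g1t_diam (d * d') χ = g1t_diam d (g1t_diam d' χ) := by
  rw [g1t_diam_eq (d * d') (g1t_sigma d' * g1t_sigma d)
    (by rw [map_mul, g1t_chi_sigma, g1t_chi_sigma, mul_comm]) χ, g1t_conjOp_mul]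
  rfl

theorem g1t_diam_comm (d d' : (ZMod M)ˣ) (χ : Gamma1 M →* A) :
    g1t_diam d (g1t_diam d' χ) = g1t_diam d' (g1t_diam d χ) := by
  rw [← g1t_diam_mul, ← g1t_diam_mul, mul_comm]

/-- **`T_p` commutes with the diamond operators** -/
theorem g1t_T_diam (hpM : ¬ p ∣ M) (d : (ZMod M)ˣ) (χ : Gamma1 M →* A) :
    g1t_T hpM (g1t_diam d χ) = g1t_diam d (g1t_T hpM χ) :=
  g1t_TS_conjOp hpM (g1t_s_adm hpM) (g1t_sigma d) χ

/-- `T_p` computed with an arbitrary admissible family of constant `e` is `T_p ∘ ⟨e / p⟩` -/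
theorem g1t_TS_eq_T (hpM : ¬ p ∣ M) {s : OnePoint (ZMod p) → Gamma0 M} {e : (ZMod M)ˣ}
    (hs : g1t_Adm hpM s e) (χ : Gamma1 M →* A) :
    g1t_TS hpM hs χ = g1t_T hpM (g1t_diam (e * (g1t_pU hpM)⁻¹) χ) :=
  g1t_TS_family hpM (g1t_s_adm hpM) hs _
    (by rw [g1t_chi_sigma, inv_mul_cancel_right]) χ

end grp

end ops

/-! ### Additive versions (the shape of the period map) -/

section add

variable {p : ℕ} [Fact p.Prime] [NeZero M]

section monoid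

variable {B : Type*} [AddCommMonoid B]

/-- `T_p` on additive characters of `Γ₁(M)`, as a function -/
def g1t_TaddFun (hpM : ¬ p ∣ M) (ψ : Additive (Gamma1 M) →+ B) : Additive (Gamma1 M) →+ B where
  toFun γ := ∑ x : OnePoint (ZMod p), ψ (Additive.ofMul (g1t_coc hpM x (Additive.toMul γ)))
  map_zero' := by simp [g1t_coc_one]
  map_add' γ γ' := by
    simp only [toMul_add, g1t_coc_mul, ofMul_mul, map_add, Finset.sum_add_distrib]
    congr 1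
    exact Equiv.sum_comp (t2c_perm ((Additive.toMul γ : Gamma1 M) : SL(2, ℤ)))
      fun x => ψ (Additive.ofMul (g1t_coc hpM x (Additive.toMul γ')))

/-- **the Hecke operator `T_p`** on `Hom(Γ₁(M), B)`, additively:
`(T_p ψ)(γ) = ∑_x ψ(c_x(γ))` -/
def g1t_Tadd (hpM : ¬ p ∣ M) :
    (Additive (Gamma1 M) →+ B) →+ (Additive (Gamma1 M) →+ B) where
  toFun := g1t_TaddFun hpM
  map_zero' := by
    ext γ
    simp [g1t_TaddFun]
  map_add' ψ ψ' := by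
    ext γ
    simp [g1t_TaddFun, Finset.sum_add_distrib]

theorem g1t_Tadd_apply (hpM : ¬ p ∣ M) (ψ : Additive (Gamma1 M) →+ B) (γ : Gamma1 M) :
    g1t_Tadd hpM ψ (Additive.ofMul γ) =
      ∑ x : OnePoint (ZMod p), ψ (Additive.ofMul (g1t_coc hpM x γ)) := rfl

/-- **the diamond operator `⟨d⟩`** on `Hom(Γ₁(M), B)`, additively:
`(⟨d⟩ψ)(γ) = ψ(σ_d γ σ_d⁻¹)` -/
def g1t_diamAdd (d : (ZMod M)ˣ) :
    (Additive (Gamma1 M) →+ B) →+ (Additive (Gamma1 M) →+ B) where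
  toFun ψ := ψ.comp (MonoidHom.toAdditive (g1t_conj (g1t_sigma d)))
  map_zero' := rfl
  map_add' _ _ := rfl

theorem g1t_diamAdd_apply (d : (ZMod M)ˣ) (ψ : Additive (Gamma1 M) →+ B) (γ : Gamma1 M) :
    g1t_diamAdd d ψ (Additive.ofMul γ) = ψ (Additive.ofMul (g1t_conj (g1t_sigma d) γ)) := rfl

/-- the bridge to the multiplicative operators -/
theorem g1t_toMul_Tadd (hpM : ¬ p ∣ M) (ψ : Additive (Gamma1 M) →+ B) :
    AddMonoidHom.toMultiplicativeRight (g1t_Tadd hpM ψ) =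
      g1t_T hpM (AddMonoidHom.toMultiplicativeRight ψ) := by
  ext γ
  apply Multiplicative.toAdd.injective
  rw [g1t_T_apply, toAdd_prod]
  rfl

theorem g1t_toMul_diamAdd (d : (ZMod M)ˣ) (ψ : Additive (Gamma1 M) →+ B) :
    AddMonoidHom.toMultiplicativeRight (g1t_diamAdd d ψ) =
      g1t_diam d (AddMonoidHom.toMultiplicativeRight ψ) := rfl

theorem g1t_Tadd_comp {B' : Type*} [AddCommMonoid B'] (hpM : ¬ p ∣ M) (φ : B →+ B')
    (ψ : Additive (Gamma1 M) →+ B) : g1t_Tadd hpM (φ.comp ψ) = φ.comp (g1t_Tadd hpM ψ) := by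
  refine AddMonoidHom.ext fun γ => ?_
  obtain ⟨γ, rfl⟩ := Additive.ofMul.surjective γ
  rw [AddMonoidHom.comp_apply, g1t_Tadd_apply, g1t_Tadd_apply, map_sum]
  rfl

theorem g1t_diamAdd_comp {B' : Type*} [AddCommMonoid B'] (d : (ZMod M)ˣ) (φ : B →+ B')
    (ψ : Additive (Gamma1 M) →+ B) : g1t_diamAdd d (φ.comp ψ) = φ.comp (g1t_diamAdd d ψ) := rfl

end monoid

section group

variable {B : Type*} [AddCommGroup B]

theorem g1t_diamAdd_eq (d : (ZMod M)ˣ) (σ : Gamma0 M) (h : g1t_chi M σ = d)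
    (ψ : Additive (Gamma1 M) →+ B) (γ : Gamma1 M) :
    g1t_diamAdd d ψ (Additive.ofMul γ) = ψ (Additive.ofMul (g1t_conj σ γ)) := by
  have h1 := DFunLike.congr_fun
    (g1t_diam_eq d σ h (AddMonoidHom.toMultiplicativeRight ψ)) γ
  exact congrArg Multiplicative.toAdd h1

theorem g1t_diamAdd_one (ψ : Additive (Gamma1 M) →+ B) : g1t_diamAdd 1 ψ = ψ := by
  apply AddMonoidHom.toMultiplicativeRight.injective
  rw [g1t_toMul_diamAdd, g1t_diam_one]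

theorem g1t_diamAdd_mul (d d' : (ZMod M)ˣ) (ψ : Additive (Gamma1 M) →+ B) :
    g1t_diamAdd (d * d') ψ = g1t_diamAdd d (g1t_diamAdd d' ψ) := by
  apply AddMonoidHom.toMultiplicativeRight.injective
  rw [g1t_toMul_diamAdd, g1t_toMul_diamAdd, g1t_toMul_diamAdd, g1t_diam_mul]

theorem g1t_diamAdd_comm (d d' : (ZMod M)ˣ) (ψ : Additive (Gamma1 M) →+ B) :
    g1t_diamAdd d (g1t_diamAdd d' ψ) = g1t_diamAdd d' (g1t_diamAdd d ψ) := by
  rw [← g1t_diamAdd_mul, ← g1t_diamAdd_mul, mul_comm]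

/-- **`T_p` commutes with the diamond operators**, additively -/
theorem g1t_Tadd_diamAdd (hpM : ¬ p ∣ M) (d : (ZMod M)ˣ) (ψ : Additive (Gamma1 M) →+ B) :
    g1t_Tadd hpM (g1t_diamAdd d ψ) = g1t_diamAdd d (g1t_Tadd hpM ψ) := by
  apply AddMonoidHom.toMultiplicativeRight.injective
  rw [g1t_toMul_Tadd, g1t_toMul_diamAdd, g1t_toMul_diamAdd, g1t_toMul_Tadd, g1t_T_diam]

end group

end add

end Fermat.Agent.DS
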