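/-
DS / Hecke operators for `Γ₁(M)`, part 5: the abelianisation `H = Γ₁(M)^ab` (additively), finitely
generated, with the endomorphisms induced by `T_p` and `⟨d⟩`:

* `g1h_Ab M`, `g1h_of M : Additive (Gamma1 M) →+ g1h_Ab M`, `g1h_lift`, `g1h_hom_ext`;
* `Module.Finite ℤ (g1h_Ab M)`;
* `g1h_T hpM`, `g1h_diam d : g1h_Ab M →+ g1h_Ab M` with
  `(ψ ∘ g1h_T hpM) ∘ of = g1t_Tadd hpM (ψ ∘ of)` for every `ψ : H →+ B`.
Prefix `g1h_`.
-/
import Mathlib
import Fermat.Agent.DS.HeckeG1.Coset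

set_option autoImplicit false
set_option linter.unusedSectionVars false

noncomputable section

open CongruenceSubgroup Matrix.SpecialLinearGroup
open scoped MatrixGroups
open Fermat.Agent.JT3

namespace Fermat.Agent.DS

variable (M : ℕ)

/-- the abelianisation of `Γ₁(M)`, additively -/
abbrev g1h_Ab : Type := Additive (Abelianization (Gamma1 M))

/-- `Γ₁(M) → Γ₁(M)^ab`, additively -/
def g1h_of : Additive (Gamma1 M) →+ g1h_Ab M := MonoidHom.toAdditive Abelianization.of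

theorem g1h_of_surjective : Function.Surjective (g1h_of M) := by
  intro x
  obtain ⟨γ, hγ⟩ := QuotientGroup.mk_surjective (s := commutator (Gamma1 M)) (Additive.toMul x)
  exact ⟨Additive.ofMul γ, congrArg Additive.ofMul hγ⟩

variable {M} {B : Type*} [AddCommGroup B]

/-- the factorisation of `φ : Γ₁(M) → B` through `Γ₁(M)^ab` -/
def g1h_lift (φ : Additive (Gamma1 M) →+ B) : g1h_Ab M →+ B :=
  MonoidHom.toAdditiveLeft (Abelianization.lift (AddMonoidHom.toMultiplicativeRight φ))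

@[simp]
theorem g1h_lift_of (φ : Additive (Gamma1 M) →+ B) (x : Additive (Gamma1 M)) :
    g1h_lift φ (g1h_of M x) = φ x := by
  change Multiplicative.toAdd
    (Abelianization.lift (AddMonoidHom.toMultiplicativeRight φ)
      (Abelianization.of (Additive.toMul x))) = _
  rw [Abelianization.lift_apply_of]
  rfl

theorem g1h_hom_ext {ψ ψ' : g1h_Ab M →+ B} (h : ∀ x, ψ (g1h_of M x) = ψ' (g1h_of M x)) :
    ψ = ψ' := by
  refine AddMonoidHom.ext fun y => ?_
  obtain ⟨x, rfl⟩ := g1h_of_surjective M y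
  exact h x

theorem g1h_lift_comp_of (ψ : g1h_Ab M →+ B) : g1h_lift (ψ.comp (g1h_of M)) = ψ :=
  g1h_hom_ext fun x => by rw [g1h_lift_of]; rfl

theorem g1h_lift_ne_zero {φ : Additive (Gamma1 M) →+ B} (hφ : φ ≠ 0) : g1h_lift φ ≠ 0 := by
  intro h
  apply hφ
  refine AddMonoidHom.ext fun x => ?_
  rw [← g1h_lift_of φ x, h]
  rfl

/-! ### Finite generation -/

theorem g1h_fg_SL2Z : Group.FG SL(2, ℤ) :=
  Group.fg_iff.2 ⟨{ModularGroup.S, ModularGroup.T}, SpecialLinearGroup.SL2Z_generators,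
    by simp⟩

variable (M) in
theorem g1h_fg_Gamma1 [NeZero M] : Group.FG (Gamma1 M) := by
  have := g1h_fg_SL2Z
  exact Subgroup.fg_of_index_ne_zero (Gamma1 M)

variable (M) in
instance g1h_fg [NeZero M] : AddGroup.FG (g1h_Ab M) := by
  have : AddGroup.FG (Additive (Gamma1 M)) := GroupFG.iff_add_fg.1 (g1h_fg_Gamma1 M)
  exact AddGroup.fg_of_surjective (g1h_of_surjective M)

variable (M) in
instance g1h_finite [NeZero M] : Module.Finite ℤ (g1h_Ab M) :=
  Module.Finite.iff_addGroup_fg.mpr (g1h_fg M)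

/-! ### The Hecke and diamond operators on `H` -/

variable [NeZero M] {p : ℕ} [Fact p.Prime]

/-- the Hecke operator `T_p` on `H = Γ₁(M)^ab`: `[γ] ↦ ∑_x [c_x(γ)]` -/
def g1h_T (hpM : ¬ p ∣ M) : g1h_Ab M →+ g1h_Ab M := g1h_lift (g1t_Tadd hpM (g1h_of M))

/-- the diamond operator `⟨d⟩` on `H = Γ₁(M)^ab`: `[γ] ↦ [σ_d γ σ_d⁻¹]` -/
def g1h_diam (d : (ZMod M)ˣ) : g1h_Ab M →+ g1h_Ab M := g1h_lift (g1t_diamAdd d (g1h_of M))

/-- `ψ ∘ T_H ∘ of = T_p (ψ ∘ of)` for every `ψ : H → B` -/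
theorem g1h_comp_T (hpM : ¬ p ∣ M) (ψ : g1h_Ab M →+ B) :
    (ψ.comp (g1h_T hpM)).comp (g1h_of M) = g1t_Tadd hpM (ψ.comp (g1h_of M)) := by
  rw [g1t_Tadd_comp]
  refine AddMonoidHom.ext fun γ => ?_
  rw [AddMonoidHom.comp_apply, AddMonoidHom.comp_apply, AddMonoidHom.comp_apply, g1h_T,
    g1h_lift_of]

theorem g1h_comp_diam (d : (ZMod M)ˣ) (ψ : g1h_Ab M →+ B) :
    (ψ.comp (g1h_diam d)).comp (g1h_of M) = g1t_diamAdd d (ψ.comp (g1h_of M)) := by
  rw [g1t_diamAdd_comp]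
  refine AddMonoidHom.ext fun γ => ?_
  rw [AddMonoidHom.comp_apply, AddMonoidHom.comp_apply, AddMonoidHom.comp_apply, g1h_diam,
    g1h_lift_of]

/-- eigenvectors of `T_p` on `Hom(Γ₁(M), B)` are eigenvectors of the precomposition with `T_H` -/
theorem g1h_lift_comp_T {R : Type*} [Monoid R] [DistribMulAction R B] (hpM : ¬ p ∣ M)
    (φ : Additive (Gamma1 M) →+ B) (a : R) (h : g1t_Tadd hpM φ = a • φ) :
    (g1h_lift φ).comp (g1h_T hpM) = a • g1h_lift φ := by
  refine g1h_hom_ext fun x => ?_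
  have h1 := DFunLike.congr_fun (g1h_comp_T hpM (g1h_lift φ)) x
  have h2 : (g1h_lift φ).comp (g1h_of M) = φ := AddMonoidHom.ext fun y => g1h_lift_of φ y
  rw [h2, h] at h1
  rw [AddMonoidHom.comp_apply, AddMonoidHom.comp_apply] at h1
  rw [AddMonoidHom.comp_apply, h1, AddMonoidHom.smul_apply, AddMonoidHom.smul_apply, g1h_lift_of]

theorem g1h_lift_comp_diam {R : Type*} [Monoid R] [DistribMulAction R B] (d : (ZMod M)ˣ)
    (φ : Additive (Gamma1 M) →+ B) (a : R) (h : g1t_diamAdd d φ = a • φ) :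
    (g1h_lift φ).comp (g1h_diam d) = a • g1h_lift φ := by
  refine g1h_hom_ext fun x => ?_
  have h1 := DFunLike.congr_fun (g1h_comp_diam d (g1h_lift φ)) x
  have h2 : (g1h_lift φ).comp (g1h_of M) = φ := AddMonoidHom.ext fun y => g1h_lift_of φ y
  rw [h2, h] at h1
  rw [AddMonoidHom.comp_apply, AddMonoidHom.comp_apply] at h1
  rw [AddMonoidHom.comp_apply, h1, AddMonoidHom.smul_apply, AddMonoidHom.smul_apply, g1h_lift_of]

/-- conversely: eigenvectors of the precompositions give eigenvectors on `Hom(Γ₁(M), B)` -/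
theorem g1h_Tadd_comp_of {R : Type*} [Monoid R] [DistribMulAction R B] (hpM : ¬ p ∣ M)
    (c : g1h_Ab M →+ B) (a : R) (h : c.comp (g1h_T hpM) = a • c) :
    g1t_Tadd hpM (c.comp (g1h_of M)) = a • c.comp (g1h_of M) := by
  rw [← g1h_comp_T, h]
  rfl

theorem g1h_diamAdd_comp_of {R : Type*} [Monoid R] [DistribMulAction R B] (d : (ZMod M)ˣ)
    (c : g1h_Ab M →+ B) (a : R) (h : c.comp (g1h_diam d) = a • c) :
    g1t_diamAdd d (c.comp (g1h_of M)) = a • c.comp (g1h_of M) := by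
  rw [← g1h_comp_diam, h]
  rfl

end Fermat.Agent.DS
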