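/-
DS / Hecke operators for `Γ₁(M)`, part 2: the Eichler primitive and the period map of
`S₂(Γ₁(M))` (port of `S21/Primitive.lean` from `Γ₀(N)` to `Γ₁(M)`):

* `g1p_prim f` : the primitive `F` of `f` with `F → 0` at `i∞`;
* `g1p_periodMap M : CuspForm (Gamma1 M) 2 →ₗ[ℂ] (Additive (Gamma1 M) →+ ℂ)`,
  `g1p_periodMap_apply : pm f γ = F(γ z) - F(z)`;
* `g1p_hasDerivAt_smul` : `F ∘ σ` is a primitive of `f ∣[2] σ` (`σ ∈ SL(2,ℤ)`),
  `g1p_prim_tendsto_smul` : the translates of `F` have limits at `i∞`;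
* `g1p_eq_prim_add` : a primitive of `f` with limit `L` at `i∞` is `F + L`.
Prefix `g1p_`.
-/
import Mathlib
import Fermat.Prelude.Def_ModularCurve_PeriodMap
import Fermat.Agent.S21.Primitive

set_option autoImplicit false
set_option linter.unusedSectionVars false

noncomputable section

open UpperHalfPlane hiding I
open Complex Filter Function Derivative CongruenceSubgroup ModularCurve ModularCurve.Period
open scoped Real Manifold Topology MatrixGroups ModularForm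
open Fermat.Agent.S22 Fermat.Agent.S21

namespace Fermat.Agent.DS

variable {M : ℕ} [NeZero M]

theorem g1p_isCuspPeriodic (f : CuspForm (Gamma1 M) 2) : IsCuspPeriodic 1 (f : ℍ → ℂ) := by
  refine isCuspPeriodic_of_cuspFormClass f one_pos ?_
  rw [CongruenceSubgroup.strictPeriods_Gamma1]
  exact AddSubgroup.mem_zmultiples 1

/-- the normalised Eichler integral `u` of `f`: `D u = f`, `u → 0` at `i∞` -/
def g1p_u (f : CuspForm (Gamma1 M) 2) : ℍ → ℂ := eichlerInt 1 1 (f : ℍ → ℂ)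

theorem g1p_u_isCuspPeriodic (f : CuspForm (Gamma1 M) 2) : IsCuspPeriodic 1 (g1p_u f) :=
  eichlerInt_isCuspPeriodic one_pos 1 (g1p_isCuspPeriodic f)

theorem g1p_D_u (f : CuspForm (Gamma1 M) 2) : D (g1p_u f) = f := by
  have := iterate_D_eichlerInt one_pos 1 (g1p_isCuspPeriodic f)
  simpa [g1p_u] using this

/-- **the Eichler primitive** of `f ∈ S₂(Γ₁(M))`: `F' = f`, `F → 0` at `i∞` -/
def g1p_prim (f : CuspForm (Gamma1 M) 2) : ℍ → ℂ := (2 * π * I)⁻¹ • g1p_u f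

theorem g1p_prim_apply (f : CuspForm (Gamma1 M) 2) (z : ℍ) :
    g1p_prim f z = (2 * π * I)⁻¹ * g1p_u f z := rfl

theorem g1p_prim_hasDerivAt (f : CuspForm (Gamma1 M) 2) (τ : ℍ) :
    HasDerivAt (g1p_prim f ∘ ofComplex) (f τ) τ := by
  have h1 := (s21_hasDerivAt_of_D_eq (g1p_u_isCuspPeriodic f).1 (g1p_D_u f) τ).const_mul
    ((2 * π * I)⁻¹)
  have h2 : (2 * (π : ℂ) * I)⁻¹ * (2 * π * I * f τ) = f τ := by
    have : (2 * (π : ℂ) * I) ≠ 0 := Complex.two_pi_I_ne_zero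
    field_simp
  rw [h2] at h1
  exact h1

theorem g1p_prim_tendsto (f : CuspForm (Gamma1 M) 2) :
    Tendsto (g1p_prim f) atImInfty (𝓝 0) := by
  have h1 : Tendsto (g1p_u f) atImInfty (𝓝 0) := (g1p_u_isCuspPeriodic f).2.2
  have h2 := h1.const_mul ((2 * π * I)⁻¹)
  rw [mul_zero] at h2
  exact h2

theorem g1p_slash_two (f : CuspForm (Gamma1 M) 2) (γ : SL(2, ℤ)) (hγ : γ ∈ Gamma1 M) :
    (f : ℍ → ℂ) ∣[(2 : ℤ)] γ = f := by
  rw [ModularForm.SL_slash]
  exact SlashInvariantFormClass.slash_action_eq f _ (Subgroup.mem_map_of_mem _ hγ)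

/-- `D (u ∘ σ) = f ∣[2] σ` for every `σ ∈ SL(2, ℤ)` (Bol's identity, `n = 1`) -/
theorem g1p_D_u_slash (f : CuspForm (Gamma1 M) 2) (σ : SL(2, ℤ)) :
    D (g1p_u f ∣[(0 : ℤ)] σ) = (f : ℍ → ℂ) ∣[(2 : ℤ)] σ := by
  have hu := (g1p_u_isCuspPeriodic f).1
  have hbol := bol_identity_SL hu 1 σ
  have h0 : (1 - ((1 : ℕ) : ℤ)) = 0 := by norm_num
  have h2 : (1 + ((1 : ℕ) : ℤ)) = 2 := by norm_num
  rw [h0, h2] at hbol
  simp only [Function.iterate_one] at hbol
  rw [g1p_D_u] at hbol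
  exact hbol

/-- `F ∘ σ` is a primitive of `f ∣[2] σ` -/
theorem g1p_hasDerivAt_smul (f : CuspForm (Gamma1 M) 2) (σ : SL(2, ℤ)) (τ : ℍ) :
    HasDerivAt ((fun z : ℍ => g1p_prim f (σ • z)) ∘ ofComplex)
      (((f : ℍ → ℂ) ∣[(2 : ℤ)] σ) τ) τ := by
  have hu := (g1p_u_isCuspPeriodic f).1
  have hu' : MDiff (g1p_u f ∣[(0 : ℤ)] σ) := by
    rw [ModularForm.SL_slash]; exact hu.slash _ _
  have h1 := (s21_hasDerivAt_of_D_eq hu' (g1p_D_u_slash f σ) τ).const_mul ((2 * π * I)⁻¹)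
  have h2 : (2 * (π : ℂ) * I)⁻¹ * (2 * π * I * ((f : ℍ → ℂ) ∣[(2 : ℤ)] σ) τ) =
      ((f : ℍ → ℂ) ∣[(2 : ℤ)] σ) τ := by
    have : (2 * (π : ℂ) * I) ≠ 0 := Complex.two_pi_I_ne_zero
    field_simp
  rw [h2] at h1
  refine h1.congr_of_eventuallyEq (Eventually.of_forall fun w => ?_)
  simp only [comp_apply, g1p_prim_apply, s21_slash_zero_apply]

/-- equivariance of `u` -/
theorem g1p_u_smul_sub (f : CuspForm (Gamma1 M) 2) (γ : SL(2, ℤ)) (hγ : γ ∈ Gamma1 M) :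
    ∃ c : ℂ, ∀ z : ℍ, g1p_u f (γ • z) - g1p_u f z = c := by
  have hf : (f : ℍ → ℂ) ∣[(1 + (1 : ℕ) : ℤ)] γ = f := by
    have : (1 + ((1 : ℕ) : ℤ)) = 2 := by norm_num
    rw [this]
    exact g1p_slash_two f γ hγ
  obtain ⟨p, hp, hpz⟩ := exists_polynomial_slash_sub (g1p_u_isCuspPeriodic f).1 1
    (by simpa using g1p_D_u f) γ hf
  rw [Polynomial.mem_degreeLT] at hp
  have hp' : p.degree ≤ 0 := by
    have h1 : p.degree < (1 : ℕ) := hp
    by_cases hp0 : p = 0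
    · rw [hp0]; simp
    · rw [Polynomial.degree_eq_natDegree hp0] at h1 ⊢
      have : p.natDegree < 1 := by exact_mod_cast h1
      have : p.natDegree = 0 := by omega
      rw [this]; rfl
  refine ⟨p.coeff 0, fun z => ?_⟩
  have h1 := hpz z
  rw [Polynomial.eq_C_of_degree_le_zero hp', Polynomial.eval_C] at h1
  rw [← h1, Pi.sub_apply]
  have h0 : (1 - ((1 : ℕ) : ℤ)) = 0 := by norm_num
  rw [h0, s21_slash_zero_apply]

theorem g1p_prim_isEquivariantPrimitive (f : CuspForm (Gamma1 M) 2) :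
    IsEquivariantPrimitive (Gamma1 M) (g1p_prim f) := by
  intro γ
  obtain ⟨c, hc⟩ := g1p_u_smul_sub f γ γ.2
  refine ⟨(2 * π * I)⁻¹ * c, fun z => ?_⟩
  rw [g1p_prim_apply, g1p_prim_apply, ← mul_sub, hc z]

/-- limits of the translates at `i∞` -/
theorem g1p_u_tendsto_smul (f : CuspForm (Gamma1 M) 2) (δ : SL(2, ℤ)) :
    ∃ L : ℂ, Tendsto (fun w : ℍ => g1p_u f (δ • w)) atImInfty (𝓝 L) := by
  obtain ⟨m, hm, hper⟩ := exists_period_slash (Γ := ((Gamma1 M : Subgroup SL(2, ℤ)) :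
    Subgroup (GL (Fin 2) ℝ))) (k := 2) f
  have hmpos : (0 : ℝ) < m := by exact_mod_cast hm
  obtain ⟨v, hv, hDv⟩ := exists_primitive hmpos (hper δ)
  have hu := (g1p_u_isCuspPeriodic f).1
  have hu' : MDiff (g1p_u f ∣[(0 : ℤ)] δ) := by
    rw [ModularForm.SL_slash]; exact hu.slash _ _
  have hD0 : D (g1p_u f ∣[(0 : ℤ)] δ - v) = 0 := by
    rw [normalizedDerivOfComplex_sub _ _ hu' hv.1, g1p_D_u_slash, hDv, sub_self]
  refine ⟨(g1p_u f ∣[(0 : ℤ)] δ - v) UpperHalfPlane.I, ?_⟩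
  have hconst : ∀ w : ℍ, g1p_u f (δ • w) = v w + (g1p_u f ∣[(0 : ℤ)] δ - v) UpperHalfPlane.I := by
    intro w
    have := const_of_D_eq_zero (hu'.sub hv.1) hD0 w UpperHalfPlane.I
    rw [Pi.sub_apply, s21_slash_zero_apply] at this
    rw [← this]
    ring
  have hv0 : Tendsto v atImInfty (𝓝 0) := hv.2.2
  have := hv0.add_const ((g1p_u f ∣[(0 : ℤ)] δ - v) UpperHalfPlane.I)
  rw [zero_add] at this
  exact this.congr fun w => (hconst w).symm

theorem g1p_prim_tendsto_smul (f : CuspForm (Gamma1 M) 2) (δ : SL(2, ℤ)) :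
    ∃ L : ℂ, Tendsto (fun w : ℍ => g1p_prim f (δ • w)) atImInfty (𝓝 L) := by
  obtain ⟨L, hL⟩ := g1p_u_tendsto_smul f δ
  exact ⟨(2 * π * I)⁻¹ * L, hL.const_mul _⟩

/-- a primitive of `f` with limit `L` at `i∞` is `F + L` -/
theorem g1p_eq_prim_add (f : CuspForm (Gamma1 M) 2) {G : ℍ → ℂ} {L : ℂ}
    (hG : ∀ τ : ℍ, HasDerivAt (G ∘ ofComplex) (f τ) τ) (hG0 : Tendsto G atImInfty (𝓝 L))
    (τ : ℍ) : G τ = g1p_prim f τ + L := by
  have hD : ∀ τ : ℍ, HasDerivAt ((G - g1p_prim f) ∘ ofComplex) 0 τ := by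
    intro τ
    have := (hG τ).sub (g1p_prim_hasDerivAt f τ)
    rw [sub_self] at this
    exact this
  have hconst : ∀ τ' : ℍ, (G - g1p_prim f) τ' = (G - g1p_prim f) τ := fun τ' =>
    s21_const_of_hasDerivAt_zero hD τ' τ
  have h1 : Tendsto (G - g1p_prim f) atImInfty (𝓝 L) := by
    have := hG0.sub (g1p_prim_tendsto f)
    rwa [sub_zero] at this
  have h2 : Tendsto (G - g1p_prim f) atImInfty (𝓝 ((G - g1p_prim f) τ)) :=
    tendsto_const_nhds.congr fun τ' => (hconst τ').symm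
  have h3 := tendsto_nhds_unique h2 h1
  rw [Pi.sub_apply] at h3
  linear_combination h3

/-! ### The period map -/

/-- the period homomorphism of `f` -/
def g1p_periodHom (f : CuspForm (Gamma1 M) 2) : Additive (Gamma1 M) →+ ℂ :=
  (g1p_prim_isEquivariantPrimitive f).periodHom

theorem g1p_periodHom_apply (f : CuspForm (Gamma1 M) 2) (γ : Gamma1 M) (z : ℍ) :
    g1p_periodHom f (Additive.ofMul γ) = g1p_prim f ((γ : SL(2, ℤ)) • z) - g1p_prim f z := by
  rw [g1p_periodHom, IsEquivariantPrimitive.periodHom_apply,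
    ← (g1p_prim_isEquivariantPrimitive f).sub_eq_period γ z]

theorem g1p_prim_add (f g : CuspForm (Gamma1 M) 2) :
    g1p_prim (f + g) = g1p_prim f + g1p_prim g := by
  have h : g1p_u (f + g) = g1p_u f + g1p_u g := by
    rw [g1p_u, FunLike.coe_add]
    exact eichlerInt_add one_pos 1 (g1p_isCuspPeriodic f) (g1p_isCuspPeriodic g)
  rw [g1p_prim, h, smul_add]
  rfl

theorem g1p_prim_smul (c : ℂ) (f : CuspForm (Gamma1 M) 2) :
    g1p_prim (c • f) = c • g1p_prim f := by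
  have h : g1p_u (c • f) = c • g1p_u f := by
    rw [g1p_u, FunLike.coe_smul]
    exact eichlerInt_smul one_pos 1 c (g1p_isCuspPeriodic f)
  rw [g1p_prim, h, smul_comm]
  rfl

/-- **the period map** of `S₂(Γ₁(M))` -/
def g1p_periodMap (M : ℕ) [NeZero M] :
    CuspForm (Gamma1 M) 2 →ₗ[ℂ] (Additive (Gamma1 M) →+ ℂ) where
  toFun f := g1p_periodHom f
  map_add' f g := by
    refine AddMonoidHom.ext fun γ => ?_
    obtain ⟨γ, rfl⟩ := Additive.ofMul.surjective γ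
    rw [AddMonoidHom.add_apply, g1p_periodHom_apply _ γ UpperHalfPlane.I,
      g1p_periodHom_apply _ γ UpperHalfPlane.I, g1p_periodHom_apply _ γ UpperHalfPlane.I,
      g1p_prim_add]
    simp only [Pi.add_apply]
    ring
  map_smul' c f := by
    refine AddMonoidHom.ext fun γ => ?_
    obtain ⟨γ, rfl⟩ := Additive.ofMul.surjective γ
    rw [RingHom.id_apply, AddMonoidHom.smul_apply, g1p_periodHom_apply _ γ UpperHalfPlane.I,
      g1p_periodHom_apply _ γ UpperHalfPlane.I, g1p_prim_smul]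
    simp only [Pi.smul_apply, smul_eq_mul]
    ring

theorem g1p_periodMap_apply (f : CuspForm (Gamma1 M) 2) (γ : Gamma1 M) (z : ℍ) :
    g1p_periodMap M f (Additive.ofMul γ) =
      g1p_prim f ((γ : SL(2, ℤ)) • z) - g1p_prim f z :=
  g1p_periodHom_apply f γ z

end Fermat.Agent.DS
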