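/-
DS / Hecke operators for `Γ₁(M)`, part 3: the period map of `S₂(Γ₁(M))` is equivariant for
`T_p` and the diamond operators.  The form-level operators are given by their slash formulas:

* `g1p_periodMap_T` : if `g = ∑_x f ∣[2] β_x` (`β_x = g1t_rep hpM x`), then
  `pm g = g1t_Tadd hpM (pm f)`;
* `g1p_periodMap_conj`, `g1p_periodMap_diam` : if `g = f ∣[2] σ` (`σ ∈ Γ₀(M)` of character `d`),
  then `pm g = g1t_diamAdd d (pm f)`.

Proof: `G(z) = ∑_x F(β_x z)` is a primitive of `g` with a limit at `i∞`, hence `G = prim g + L`, and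
`G(γ z) - G(z) = ∑_x [F(c_x(γ) β_{x⋆γ} z) - F(β_x z)] = ∑_x pm f (c_x(γ))`.
Prefix `g1p_`.
-/
import Mathlib
import Fermat.Agent.DS.HeckeG1.Coset
import Fermat.Agent.DS.HeckeG1.Period
import Fermat.Agent.JT3.T2.Period

set_option autoImplicit false
set_option linter.unusedSectionVars false

noncomputable section

open UpperHalfPlane hiding I
open Complex Filter Function CongruenceSubgroup ModularCurve ModularCurve.Period ModularForm
open Matrix.SpecialLinearGroup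
open scoped Real Manifold Topology MatrixGroups ModularForm
open Fermat.Agent.S21 Fermat.Agent.JT3
open P2MW.S_ModularForm_heckeT_slash_eq_self_of_mem_Gamma0.ModularForm.HeckeSlashInvariance

namespace Fermat.Agent.DS

variable {M : ℕ} [NeZero M] {p : ℕ} [Fact p.Prime]

/-! ### Translates by `σ · heckeRep p x` -/

theorem g1p_hasDerivAt_smul_rep (f : CuspForm (Gamma1 M) 2) (σ : SL(2, ℤ))
    (x : OnePoint (ZMod p)) (τ : ℍ) :
    HasDerivAt ((fun z : ℍ => g1p_prim f (σ • (heckeRep p x • z))) ∘ ofComplex)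
      (((f : ℍ → ℂ) ∣[(2 : ℤ)] (mapGL ℝ σ * heckeRep p x)) τ) τ := by
  have h := t2p_hasDerivAt_term (p := p) (F := fun z : ℍ => g1p_prim f (σ • z))
    (f := (f : ℍ → ℂ) ∣[(2 : ℤ)] σ) (fun τ => g1p_hasDerivAt_smul f σ τ) x τ
  rw [SlashAction.slash_mul]
  exact h

theorem g1p_tendsto_smul_rep (f : CuspForm (Gamma1 M) 2) (σ : SL(2, ℤ))
    (x : OnePoint (ZMod p)) :
    ∃ L : ℂ, Tendsto (fun z : ℍ => g1p_prim f (σ • (heckeRep p x • z))) atImInfty (𝓝 L) := by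
  obtain ⟨L, hL⟩ := g1p_prim_tendsto_smul f σ
  exact ⟨L, hL.comp (t2p_tendsto_smul x)⟩

theorem g1p_rep_smul (hpM : ¬ p ∣ M) (x : OnePoint (ZMod p)) (z : ℍ) :
    g1t_rep hpM x • z = ((g1t_s hpM x : Gamma0 M) : SL(2, ℤ)) • (heckeRep p x • z) := by
  change (mapGL ℝ ((g1t_s hpM x : Gamma0 M) : SL(2, ℤ)) * heckeRep p x) • z =
    mapGL ℝ ((g1t_s hpM x : Gamma0 M) : SL(2, ℤ)) • (heckeRep p x • z)
  rw [mul_smul]

theorem g1p_rep_smul_smul (hpM : ¬ p ∣ M) (x : OnePoint (ZMod p)) (γ : Gamma1 M) (z : ℍ) :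
    g1t_rep hpM x • ((γ : SL(2, ℤ)) • z) =
      ((g1t_coc hpM x γ : Gamma1 M) : SL(2, ℤ)) •
        (g1t_rep hpM (t2c_act (γ : SL(2, ℤ)) x) • z) := by
  change g1t_rep hpM x • (mapGL ℝ (γ : SL(2, ℤ)) • z) =
    mapGL ℝ ((g1t_coc hpM x γ : Gamma1 M) : SL(2, ℤ)) •
      (g1t_rep hpM (t2c_act (γ : SL(2, ℤ)) x) • z)
  rw [← mul_smul, ← mul_smul, g1t_coc_spec]

/-! ### `T_p` -/

/-- **Hecke equivariance of the period map of `S₂(Γ₁(M))`.** -/
theorem g1p_periodMap_T (hpM : ¬ p ∣ M) (f g : CuspForm (Gamma1 M) 2)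
    (h : ∀ τ : ℍ, g τ = ∑ x : OnePoint (ZMod p), ((f : ℍ → ℂ) ∣[(2 : ℤ)] g1t_rep hpM x) τ) :
    g1p_periodMap M g = g1t_Tadd hpM (g1p_periodMap M f) := by
  -- the candidate primitive
  set G : ℍ → ℂ := fun z => ∑ x : OnePoint (ZMod p), g1p_prim f (g1t_rep hpM x • z) with hG
  have hGd : ∀ τ : ℍ, HasDerivAt (G ∘ ofComplex) (g τ) τ := by
    intro τ
    rw [h τ]
    have hs := HasDerivAt.fun_sum (u := (Finset.univ : Finset (OnePoint (ZMod p))))
      (A := fun x => (fun z : ℍ => g1p_prim f (((g1t_s hpM x : Gamma0 M) : SL(2, ℤ)) •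
        (heckeRep p x • z))) ∘ ofComplex)
      (A' := fun x => ((f : ℍ → ℂ) ∣[(2 : ℤ)] g1t_rep hpM x) τ) (x := (τ : ℂ))
      fun x _ => g1p_hasDerivAt_smul_rep f _ x τ
    refine hs.congr_of_eventuallyEq (Eventually.of_forall fun w => ?_)
    simp only [hG, comp_apply, g1p_rep_smul]
  choose L hL using fun x : OnePoint (ZMod p) =>
    g1p_tendsto_smul_rep f ((g1t_s hpM x : Gamma0 M) : SL(2, ℤ)) x
  have hG0 : Tendsto G atImInfty (𝓝 (∑ x : OnePoint (ZMod p), L x)) := by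
    have h1 : Tendsto (fun z : ℍ => ∑ x : OnePoint (ZMod p),
        g1p_prim f (((g1t_s hpM x : Gamma0 M) : SL(2, ℤ)) • (heckeRep p x • z))) atImInfty
        (𝓝 (∑ x : OnePoint (ZMod p), L x)) := tendsto_finsetSum _ fun x _ => hL x
    refine h1.congr fun z => ?_
    simp only [hG, g1p_rep_smul]
  have hprim : ∀ z : ℍ, g1p_prim g z = G z - ∑ x : OnePoint (ZMod p), L x := fun z => by
    rw [g1p_eq_prim_add g hGd hG0 z, add_sub_cancel_right]
  refine AddMonoidHom.ext fun γ => ?_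
  obtain ⟨γ, rfl⟩ := Additive.ofMul.surjective γ
  rw [g1p_periodMap_apply _ γ UpperHalfPlane.I, hprim, hprim, g1t_Tadd_apply, sub_sub_sub_cancel_right]
  simp only [hG]
  rw [← Finset.sum_sub_distrib]
  have hterm : ∀ x : OnePoint (ZMod p),
      g1p_prim f (g1t_rep hpM x • ((γ : SL(2, ℤ)) • UpperHalfPlane.I)) -
        g1p_prim f (g1t_rep hpM x • UpperHalfPlane.I) =
      g1p_periodMap M f (Additive.ofMul (g1t_coc hpM x γ)) +
        (g1p_prim f (g1t_rep hpM (t2c_perm (γ : SL(2, ℤ)) x) • UpperHalfPlane.I) -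
          g1p_prim f (g1t_rep hpM x • UpperHalfPlane.I)) := by
    intro x
    rw [g1p_rep_smul_smul hpM x γ, g1p_periodMap_apply f (g1t_coc hpM x γ)
      (g1t_rep hpM (t2c_act (γ : SL(2, ℤ)) x) • UpperHalfPlane.I), t2c_perm_apply]
    ring
  rw [Finset.sum_congr rfl fun x _ => hterm x, Finset.sum_add_distrib, Finset.sum_sub_distrib,
    Equiv.sum_comp (t2c_perm (γ : SL(2, ℤ)))
      fun x => g1p_prim f (g1t_rep hpM x • UpperHalfPlane.I), sub_self, add_zero]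

/-- eigenforms give eigenvectors -/
theorem g1p_periodMap_T_eigen (hpM : ¬ p ∣ M) (f : CuspForm (Gamma1 M) 2) (b : ℂ)
    (h : ∀ τ : ℍ, ∑ x : OnePoint (ZMod p), ((f : ℍ → ℂ) ∣[(2 : ℤ)] g1t_rep hpM x) τ = b * f τ) :
    g1t_Tadd hpM (g1p_periodMap M f) = b • g1p_periodMap M f := by
  rw [← g1p_periodMap_T hpM f (b • f) (fun τ => by rw [h τ]; rfl), map_smul]

/-! ### The diamond operators -/

theorem g1p_periodMap_conj (σ : Gamma0 M) (f g : CuspForm (Gamma1 M) 2)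
    (h : ∀ τ : ℍ, g τ = ((f : ℍ → ℂ) ∣[(2 : ℤ)] ((σ : Gamma0 M) : SL(2, ℤ))) τ) (γ : Gamma1 M) :
    g1p_periodMap M g (Additive.ofMul γ) =
      g1p_periodMap M f (Additive.ofMul (g1t_conj σ γ)) := by
  set G : ℍ → ℂ := fun z => g1p_prim f (((σ : Gamma0 M) : SL(2, ℤ)) • z) with hG
  have hGd : ∀ τ : ℍ, HasDerivAt (G ∘ ofComplex) (g τ) τ := by
    intro τ
    rw [h τ]
    exact g1p_hasDerivAt_smul f _ τ
  obtain ⟨L, hL⟩ := g1p_prim_tendsto_smul f ((σ : Gamma0 M) : SL(2, ℤ))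
  have hprim : ∀ z : ℍ, g1p_prim g z = G z - L := fun z => by
    rw [g1p_eq_prim_add g hGd hL z, add_sub_cancel_right]
  rw [g1p_periodMap_apply _ γ UpperHalfPlane.I, hprim, hprim, sub_sub_sub_cancel_right,
    g1p_periodMap_apply f (g1t_conj σ γ) (((σ : Gamma0 M) : SL(2, ℤ)) • UpperHalfPlane.I)]
  simp only [hG]
  rw [g1t_conj_coe, mul_smul, mul_smul, inv_smul_smul]

/-- **diamond equivariance of the period map** -/
theorem g1p_periodMap_diam (d : (ZMod M)ˣ) (σ : Gamma0 M) (hσ : g1t_chi M σ = d)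
    (f g : CuspForm (Gamma1 M) 2)
    (h : ∀ τ : ℍ, g τ = ((f : ℍ → ℂ) ∣[(2 : ℤ)] ((σ : Gamma0 M) : SL(2, ℤ))) τ) :
    g1p_periodMap M g = g1t_diamAdd d (g1p_periodMap M f) := by
  refine AddMonoidHom.ext fun γ => ?_
  obtain ⟨γ, rfl⟩ := Additive.ofMul.surjective γ
  rw [g1p_periodMap_conj σ f g h γ, g1t_diamAdd_eq d σ hσ]

/-- forms with nebentypus give diamond eigenvectors -/
theorem g1p_periodMap_diam_eigen (d : (ZMod M)ˣ) (σ : Gamma0 M) (hσ : g1t_chi M σ = d)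
    (f : CuspForm (Gamma1 M) 2) (c : ℂ)
    (h : ∀ τ : ℍ, ((f : ℍ → ℂ) ∣[(2 : ℤ)] ((σ : Gamma0 M) : SL(2, ℤ))) τ = c * f τ) :
    g1t_diamAdd d (g1p_periodMap M f) = c • g1p_periodMap M f := by
  rw [← g1p_periodMap_diam d σ hσ f (c • f) (fun τ => by rw [h τ]; rfl), map_smul]

end Fermat.Agent.DS
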