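/-
DS / cell [PM], part 1: from the `q`-coefficient relations `ds_W2 M ψ g b` (weight two on `Γ₁(M)`)
to the function-level identities (weight-two twins of `ds0_eigen_of_hT` / `ds0_nebentypus`):

* `g1e_eigen`      : `U_p g + ψ(p) • g ∣[2] diag(p,1) = b_p • g`;
* `g1e_nebentypus` : `g ∣[2] γ = ψ(γ₁₁) • g` for `γ ∈ Γ₀(M)`;
* `g1e_sum_rep`    : `∑_x g ∣[2] β_x = b_p • g` for the representatives `β_x = g1t_rep hpM x`;
* `g1e_periodMap_T`, `g1e_periodMap_diam` : the period class `pm g` is an eigenvector of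
  `g1t_Tadd hpM` (eigenvalue `b p`) and of `g1t_diamAdd d` (eigenvalue `ψ d`).
Prefix `g1e_`.
-/
import Mathlib
import Fermat.Agent.DS.Defs
import Fermat.Agent.DS.Neben.Nebentypus
import Fermat.Agent.DS.HeckeG1.PeriodHecke

set_option autoImplicit false
set_option linter.unusedSectionVars false

noncomputable section

open Complex Function Filter ModularForm ModularFormClass CongruenceSubgroup
open UpperHalfPlane hiding I
open Matrix.SpecialLinearGroup
open scoped Real MatrixGroups ModularForm Manifold Topology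
open Fermat.Agent.JT3
open P2MW.S_ModularForm_heckeT_slash_eq_self_of_mem_Gamma0.ModularForm.HeckeSlashInvariance

namespace Fermat.Agent.DS

variable {M : ℕ} [NeZero M] {ψ : DirichletCharacter ℂ M} {g : CuspForm (Gamma1 M) 2} {b : ℕ → ℂ}

/-- the function identity `U_p g + ψ(p) V_p g = b_p g` -/
theorem g1e_eigen (h : ds_W2 M ψ g b) {p : ℕ} (hp : p.Prime) (hpM : ¬ p ∣ M) :
    heckeU 2 p ⇑g + ψ (p : ZMod M) • (⇑g ∣[(2 : ℤ)] heckeDiagMatrix p) = b p • ⇑g := by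
  have h1 : (1 : ℝ) ∈ (Gamma1 M : Subgroup (GL (Fin 2) ℝ)).strictPeriods := by simp
  have : Fact (IsCusp OnePoint.infty (Gamma1 M : Subgroup (GL (Fin 2) ℝ))) :=
    ⟨Subgroup.isCusp_of_mem_strictPeriods one_pos h1⟩
  refine ds0_eigen_of_rec 2 hp.ne_zero (SlashInvariantFormClass.periodic_comp_ofComplex g h1)
    (holo g) (bdd_at_infty g) _ _ fun n ↦ ?_
  have := h.hecke p hp hpM n
  have h2 : ((p : ℂ)) ^ ((2 : ℤ) - 1) = p := by norm_num
  rw [h2]
  split_ifs at this ⊢ with hdvd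
  · linear_combination this
  · simpa using this

/-- `⟨p⟩ g = ψ(p) g` for all large primes -/
theorem g1e_diamond_prime (h : ds_W2 M ψ g b) {p : ℕ} (hp : p.Prime) (hpM : ¬ p ∣ M)
    (hpB : ds0_sturm M 2 < p) :
    ds0_diamond M 2 ⇑g (p : ZMod M) = ψ (p : ZMod M) • ⇑g :=
  ds0_diamond_eq_smul g hp hpM hpB _ _ (g1e_eigen h hp hpM)

/-- **the nebentypus of a weight-two eigen-datum** -/
theorem g1e_nebentypus (h : ds_W2 M ψ g b) (γ : SL(2, ℤ)) (hγ : γ ∈ Gamma0 M) :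
    ⇑g ∣[(2 : ℤ)] mapGL ℝ γ = ψ (((γ 1 1 : ℤ)) : ZMod M) • ⇑g := by
  obtain ⟨p, hpgt, hp, hpeq⟩ :=
    Nat.forall_exists_prime_gt_and_eq_mod (ds0_d_isUnit hγ) (max (ds0_sturm M 2) M)
  have hpM : ¬ p ∣ M :=
    Nat.not_dvd_of_pos_of_lt (NeZero.pos M) (lt_of_le_of_lt (le_max_right _ _) hpgt)
  have hpB : ds0_sturm M 2 < p := lt_of_le_of_lt (le_max_left _ _) hpgt
  have h2 := g1e_diamond_prime h hp hpM hpB
  rw [hpeq, ds0_diamond_of_mem (ds0_slash_Gamma1 g) hγ] at h2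
  exact h2

variable {p : ℕ} [Fact p.Prime]

/-- the slash by `σ_p · diag(p,1)` -/
theorem g1e_slash_rep_infty (h : ds_W2 M ψ g b) (hpM : ¬ p ∣ M) :
    ⇑g ∣[(2 : ℤ)] g1t_rep hpM (OnePoint.infty : OnePoint (ZMod p)) =
      ψ (p : ZMod M) • (⇑g ∣[(2 : ℤ)] heckeDiagMatrix p) := by
  rw [g1t_rep_infty, SlashAction.slash_mul,
    g1e_nebentypus h _ (g1t_sigma (g1t_pU hpM) : Gamma0 M).2, ModularForm.smul_slash,
    heckeRep_infty, σ_heckeDiagMatrix, ContinuousAlgEquiv.refl_apply]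
  congr 2
  rw [← g1t_chi_coe, g1t_chi_sigma, g1t_pU_coe]

/-- **`g` is an eigenfunction of `T_p = ∑_x ∣[2] β_x`** -/
theorem g1e_sum_rep (h : ds_W2 M ψ g b) (hpM : ¬ p ∣ M) (τ : ℍ) :
    ∑ x : OnePoint (ZMod p), (⇑g ∣[(2 : ℤ)] g1t_rep hpM x) τ = b p * g τ := by
  have hp : p.Prime := Fact.out
  have he := congrFun (g1e_eigen h hp hpM) τ
  rw [heckeU_eq_sum_zmod] at he
  simp only [Pi.add_apply, Pi.smul_apply, smul_eq_mul, Finset.sum_apply] at he
  rw [← he]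
  have hsum := Fintype.sum_option (fun x : OnePoint (ZMod p) ↦ (⇑g ∣[(2 : ℤ)] g1t_rep hpM x) τ)
  rw [show (∑ x : OnePoint (ZMod p), (⇑g ∣[(2 : ℤ)] g1t_rep hpM x) τ) =
    ∑ x : Option (ZMod p), (⇑g ∣[(2 : ℤ)] g1t_rep hpM x) τ from rfl, hsum, add_comm]
  congr 1
  · refine Finset.sum_congr rfl fun j _ => ?_
    rw [show g1t_rep hpM (some j) = g1t_rep hpM ((j : ZMod p) : OnePoint (ZMod p)) from rfl,
      g1t_rep_coe, heckeRep_coe]
  · rw [show g1t_rep hpM (none : Option (ZMod p)) =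
      g1t_rep hpM (OnePoint.infty : OnePoint (ZMod p)) from rfl, g1e_slash_rep_infty h hpM]
    rfl

/-- the period class of a weight-two eigen-datum is a `T_p`-eigenvector -/
theorem g1e_periodMap_T (h : ds_W2 M ψ g b) (hpM : ¬ p ∣ M) :
    g1t_Tadd hpM (g1p_periodMap M g) = b p • g1p_periodMap M g :=
  g1p_periodMap_T_eigen hpM g (b p) (g1e_sum_rep h hpM)

/-- the period class of a weight-two eigen-datum is a diamond eigenvector -/
theorem g1e_periodMap_diam (h : ds_W2 M ψ g b) (d : (ZMod M)ˣ) :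
    g1t_diamAdd d (g1p_periodMap M g) = ψ (d : ZMod M) • g1p_periodMap M g := by
  refine g1p_periodMap_diam_eigen d (g1t_sigma d) (g1t_chi_sigma d) g _ fun τ => ?_
  have h2 := congrFun (g1e_nebentypus h _ (g1t_sigma d : Gamma0 M).2) τ
  rw [Pi.smul_apply, smul_eq_mul, ← g1t_chi_coe, g1t_chi_sigma] at h2
  exact h2

end Fermat.Agent.DS
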