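/-
DS / Hecke operators for `Γ₁(M)`, part 4: the periods of `f ∈ S₂(Γ₁(M))`

* vanish on the parabolic and on the elliptic elements (`g1p_periodMap_parEll : tr² ≤ 4 ⟹ 0`);
* determine `f` (`g1p_periodMap_eq_zero : pm f = 0 ⟹ f = 0`), by the maximum modulus principle on
  `Γ \ ℍ*` for a finite index subgroup `Γ` (`g1p_const_of_invariant_norm`, the generic-`Γ` port of
  `S21/MaxModulus.lean`).
Prefix `g1p_`.
-/
import Mathlib
import Fermat.Agent.DS.HeckeG1.Period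
import Fermat.Agent.S21.Parabolic
import Fermat.Agent.S21.MaxModulus
import Fermat.Agent.JT3.Gateway.Homology

set_option autoImplicit false
set_option linter.unusedSectionVars false

noncomputable section

open UpperHalfPlane hiding I
open Complex Filter Function CongruenceSubgroup ModularCurve ModularCurve.Period
open scoped Real Manifold Topology MatrixGroups ModularForm
open Fermat.Agent.S21 Fermat.Agent.JT3

namespace Fermat.Agent.DS

/-! ### The maximum modulus principle for a finite index subgroup -/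

/-- **Maximum modulus principle on `Γ \ ℍ*`**, `Γ` of finite index in `SL(2, ℤ)`. -/
theorem g1p_const_of_invariant_norm (Γ : Subgroup SL(2, ℤ)) [Γ.FiniteIndex] (N : ℕ) [NeZero N]
    (φ : ℍ → ℂ) (hφ : MDiff φ)
    (hinv : ∀ γ ∈ Γ, ∀ z : ℍ, ‖φ (γ • z)‖ = ‖φ z‖)
    (hper : ∀ (δ : SL(2, ℤ)) (z : ℍ), φ (δ • ((N : ℝ) +ᵥ z)) = φ (δ • z))
    (hbdd : ∀ δ : SL(2, ℤ), IsBoundedAtImInfty (fun z => φ (δ • z))) :
    ∃ c : ℂ, ∀ z : ℍ, φ z = c := by
  have hNpos : (0 : ℝ) < N := Nat.cast_pos.mpr (NeZero.pos N)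
  have hg_mdiff : ∀ δ : SL(2, ℤ), MDiff (fun z => φ (δ • z)) := fun δ => pi_mdiff_comp_smul δ hφ
  have hg_per : ∀ δ : SL(2, ℤ), Periodic ((fun z => φ (δ • z)) ∘ ofComplex) ((N : ℝ) : ℂ) :=
    fun δ => pi_periodic_of_vadd (hper δ)
  set Ψ : SL(2, ℤ) → ℂ → ℂ := fun δ => cuspFunction (N : ℝ) (fun z => φ (δ • z)) with hΨ
  have hΨ_diff : ∀ δ, DifferentiableOn ℂ (Ψ δ) (Metric.ball 0 1) := fun δ q hq =>
    (differentiableAt_cuspFunction hNpos (hg_per δ) (hg_mdiff δ) (hbdd δ)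
      (by simpa using hq)).differentiableWithinAt
  have hΨ_eq : ∀ (δ : SL(2, ℤ)) (τ : ℍ), Ψ δ (Periodic.qParam (N : ℝ) τ) = φ (δ • τ) :=
    fun δ τ => eq_cuspFunction τ hNpos.ne' (hg_per δ)
  let Q := SL(2, ℤ) ⧸ Γ
  have : Finite Q := Subgroup.finite_quotient_of_finiteIndex
  let r : Q → SL(2, ℤ) := fun x => (Quotient.out x)⁻¹
  have hr : ∀ δ : SL(2, ℤ), ∃ γ ∈ Γ, δ = γ * r (QuotientGroup.mk δ⁻¹) := by
    intro δ
    obtain ⟨h, hh⟩ := QuotientGroup.mk_out_eq_mul Γ δ⁻¹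
    refine ⟨(h : SL(2, ℤ)), h.2, ?_⟩
    show δ = (h : SL(2, ℤ)) * (Quotient.out (QuotientGroup.mk δ⁻¹ : Q))⁻¹
    rw [hh]
    group
  set ρ : ℝ := Real.exp (-π / N) with hρ
  have hρ0 : 0 ≤ ρ := (Real.exp_pos _).le
  have hρ1 : ρ < 1 := by
    rw [hρ, Real.exp_lt_one_iff]
    exact div_neg_of_neg_of_pos (neg_lt_zero.mpr Real.pi_pos) hNpos
  have hsub : Metric.closedBall (0 : ℂ) ρ ⊆ Metric.ball 0 1 :=
    Metric.closedBall_subset_ball hρ1
  have hmax : ∀ x : Q, ∃ s ∈ Metric.closedBall (0 : ℂ) ρ,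
      ∀ t ∈ Metric.closedBall (0 : ℂ) ρ, ‖Ψ (r x) t‖ ≤ ‖Ψ (r x) s‖ := by
    intro x
    have hc : ContinuousOn (fun t => ‖Ψ (r x) t‖) (Metric.closedBall (0 : ℂ) ρ) :=
      ((hΨ_diff (r x)).continuousOn.mono hsub).norm
    obtain ⟨s, hs, hmaxs⟩ := (isCompact_closedBall (0 : ℂ) ρ).exists_isMaxOn
      ⟨0, by simpa using hρ0⟩ hc
    exact ⟨s, hs, fun t ht => hmaxs ht⟩
  choose s hs hsmax using hmax
  obtain ⟨x0, hx0⟩ := Finite.exists_max fun x : Q => ‖Ψ (r x) (s x)‖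
  have hglob : ∀ t ∈ Metric.ball (0 : ℂ) 1, ‖Ψ (r x0) t‖ ≤ ‖Ψ (r x0) (s x0)‖ := by
    intro t ht
    have ht1 : ‖t‖ < 1 := by simpa using ht
    by_cases ht0 : t = 0
    · subst ht0
      exact hsmax x0 0 (by simpa using hρ0)
    · let τ : ℍ := ⟨Periodic.invQParam (N : ℝ) t,
        Periodic.im_invQParam_pos_of_norm_lt_one hNpos ht1 ht0⟩
      have hτ : Periodic.qParam (N : ℝ) (τ : ℂ) = t := Periodic.qParam_right_inv hNpos.ne' ht0
      rw [← hτ, hΨ_eq]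
      obtain ⟨γ1, hγ1⟩ := ModularGroup.exists_one_half_le_im_smul (r x0 • τ)
      set ξ : ℍ := γ1 • (r x0 • τ) with hξ
      obtain ⟨γ, hγ, hδ⟩ := hr γ1⁻¹
      set y : Q := QuotientGroup.mk (γ1⁻¹)⁻¹ with hy
      have h1 : r x0 • τ = γ • (r y • ξ) := by
        rw [← mul_smul, ← hδ, hξ, inv_smul_smul]
      have hq : Periodic.qParam (N : ℝ) (ξ : ℂ) ∈ Metric.closedBall (0 : ℂ) ρ := by
        rw [mem_closedBall_zero_iff, Periodic.norm_qParam, hρ, Real.exp_le_exp,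
          div_le_div_iff_of_pos_right hNpos]
        have : (1 : ℝ) / 2 ≤ (ξ : ℂ).im := hγ1
        nlinarith [Real.pi_pos]
      calc ‖φ (r x0 • τ)‖ = ‖φ (γ • (r y • ξ))‖ := by rw [h1]
        _ = ‖φ (r y • ξ)‖ := hinv γ hγ _
        _ = ‖Ψ (r y) (Periodic.qParam (N : ℝ) (ξ : ℂ))‖ := by rw [hΨ_eq]
        _ ≤ ‖Ψ (r y) (s y)‖ := hsmax y _ hq
        _ ≤ ‖Ψ (r x0) (s x0)‖ := hx0 y
  have hconst := Complex.eqOn_of_isPreconnected_of_isMaxOn_norm
    (convex_ball (0 : ℂ) 1).isPreconnected Metric.isOpen_ball (hΨ_diff (r x0))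
    (hsub (hs x0)) (fun t ht => hglob t ht)
  refine ⟨Ψ (r x0) (s x0), fun z => ?_⟩
  have h2 := hΨ_eq (r x0) ((r x0)⁻¹ • z)
  rw [smul_inv_smul] at h2
  rw [← h2]
  refine hconst ?_
  rw [mem_ball_zero_iff]
  exact Periodic.norm_qParam_lt_one hNpos (UpperHalfPlane.im_pos _)

variable {M : ℕ} [NeZero M]

/-! ### Vanishing of the parabolic and elliptic periods -/

/-- if `γ` acts on the cusp `δ∞` as the translation by `k`, its period vanishes -/
theorem g1p_period_eq_zero_of_conj (f : CuspForm (Gamma1 M) 2) (γ : Gamma1 M) (δ : SL(2, ℤ))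
    (k : ℤ) (h : ∀ w : ℍ, (γ : SL(2, ℤ)) • (δ • w) = δ • ((k : ℝ) +ᵥ w)) :
    g1p_periodMap M f (Additive.ofMul γ) = 0 := by
  obtain ⟨L, hL⟩ := g1p_prim_tendsto_smul f δ
  have h1 : Tendsto (fun w : ℍ => g1p_prim f (δ • ((k : ℝ) +ᵥ w))) atImInfty (𝓝 L) :=
    hL.comp (s21_tendsto_vadd (k : ℝ))
  have h2 : ∀ w : ℍ, g1p_periodMap M f (Additive.ofMul γ)
      = g1p_prim f (δ • ((k : ℝ) +ᵥ w)) - g1p_prim f (δ • w) := by
    intro w
    rw [g1p_periodMap_apply f γ (δ • w), h w]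
  have h3 : Tendsto (fun _ : ℍ => g1p_periodMap M f (Additive.ofMul γ)) atImInfty (𝓝 (L - L)) :=
    (h1.sub hL).congr fun w => (h2 w).symm
  have h4 := tendsto_nhds_unique tendsto_const_nhds h3
  rw [sub_self] at h4
  exact h4

/-- periods vanish on the parabolic elements -/
theorem g1p_periodMap_parabolic (f : CuspForm (Gamma1 M) 2) (γ : Gamma1 M)
    (hγ : ((γ : SL(2, ℤ)) : Matrix (Fin 2) (Fin 2) ℤ).trace ^ 2 = 4) :
    g1p_periodMap M f (Additive.ofMul γ) = 0 := by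
  rw [Matrix.trace_fin_two] at hγ
  have htr : (γ : SL(2, ℤ)) 0 0 + (γ : SL(2, ℤ)) 1 1 = 2 ∨
      (γ : SL(2, ℤ)) 0 0 + (γ : SL(2, ℤ)) 1 1 = -2 := by
    have h0 : ((γ : SL(2, ℤ)) 0 0 + (γ : SL(2, ℤ)) 1 1 - 2) *
        ((γ : SL(2, ℤ)) 0 0 + (γ : SL(2, ℤ)) 1 1 + 2) = 0 := by
      linear_combination hγ
    rcases mul_eq_zero.mp h0 with h | h
    · left; linarith
    · right; linarith
  rcases htr with h | h
  · obtain ⟨δ, k, hδ⟩ := s21_exists_conj_T_zpow (γ : SL(2, ℤ)) h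
    refine g1p_period_eq_zero_of_conj f γ δ k fun w => ?_
    rw [← mul_smul, hδ, mul_smul, UpperHalfPlane.modular_T_zpow_smul]
  · obtain ⟨δ, k, hδ⟩ := s21_exists_conj_T_zpow (-(γ : SL(2, ℤ))) (by
      simp only [Matrix.SpecialLinearGroup.coe_neg, Matrix.neg_apply]
      linarith)
    refine g1p_period_eq_zero_of_conj f γ δ k fun w => ?_
    have h5 : (γ : SL(2, ℤ)) • (δ • w) = (-(γ : SL(2, ℤ))) • (δ • w) :=
      (ModularGroup.SL_neg_smul _ _).symm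
    rw [h5, ← mul_smul, hδ, mul_smul, UpperHalfPlane.modular_T_zpow_smul]

/-- periods vanish on the elliptic elements (they have finite order) -/
theorem g1p_periodMap_elliptic (f : CuspForm (Gamma1 M) 2) (γ : Gamma1 M)
    (hγ : ((γ : SL(2, ℤ)) : Matrix (Fin 2) (Fin 2) ℤ).trace ^ 2 < 4) :
    g1p_periodMap M f (Additive.ofMul γ) = 0 := by
  rw [Matrix.trace_fin_two] at hγ
  have h12 : γ ^ 12 = 1 := Subtype.ext (by
    rw [SubgroupClass.coe_pow, Subgroup.coe_one]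
    exact gh_pow_twelve (γ : SL(2, ℤ)) hγ)
  have h1 : (12 : ℕ) • g1p_periodMap M f (Additive.ofMul γ) = 0 := by
    rw [← map_nsmul, ← ofMul_pow, h12, ofMul_one, map_zero]
  rw [nsmul_eq_mul] at h1
  rcases mul_eq_zero.mp h1 with h2 | h2
  · norm_num at h2
  · exact h2

/-- **periods vanish on the elements with `tr² ≤ 4`** -/
theorem g1p_periodMap_parEll (f : CuspForm (Gamma1 M) 2) (γ : Gamma1 M)
    (hγ : ((γ : SL(2, ℤ)) : Matrix (Fin 2) (Fin 2) ℤ).trace ^ 2 ≤ 4) :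
    g1p_periodMap M f (Additive.ofMul γ) = 0 := by
  rcases lt_or_eq_of_le hγ with h | h
  · exact g1p_periodMap_elliptic f γ h
  · exact g1p_periodMap_parabolic f γ h

/-! ### The periods determine the form -/

theorem g1p_Gamma_le_Gamma1 : CongruenceSubgroup.Gamma M ≤ Gamma1 M := fun A hA => by
  simp_all [Gamma1_mem, Gamma_mem]

/-- **`pm f = 0 ⟹ f = 0`** -/
theorem g1p_periodMap_eq_zero (f : CuspForm (Gamma1 M) 2) (h : g1p_periodMap M f = 0) :
    f = 0 := by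
  -- the primitive is `Γ₁(M)`-invariant
  have hinv : ∀ γ ∈ Gamma1 M, ∀ z : ℍ, g1p_prim f (γ • z) = g1p_prim f z := by
    intro γ hγ z
    have h1 := g1p_periodMap_apply f ⟨γ, hγ⟩ z
    rw [h, AddMonoidHom.zero_apply] at h1
    exact (sub_eq_zero.mp h1.symm)
  have hper : ∀ (δ : SL(2, ℤ)) (z : ℍ),
      g1p_prim f (δ • ((M : ℝ) +ᵥ z)) = g1p_prim f (δ • z) := by
    intro δ z
    have hT : ModularGroup.T ^ (M : ℤ) ∈ CongruenceSubgroup.Gamma M := by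
      have := ModularGroup_T_pow_mem_Gamma (M : ℤ) (M : ℤ) dvd_rfl
      simpa using this
    have hconj : δ * ModularGroup.T ^ (M : ℤ) * δ⁻¹ ∈ Gamma1 M :=
      g1p_Gamma_le_Gamma1 ((Gamma_normal M).conj_mem _ hT δ)
    have h1 := hinv _ hconj (δ • z)
    rw [← h1, mul_smul, mul_smul, inv_smul_smul, UpperHalfPlane.modular_T_zpow_smul]
    simp
  have hbdd : ∀ δ : SL(2, ℤ), IsBoundedAtImInfty (fun z => g1p_prim f (δ • z)) := by
    intro δ
    obtain ⟨L, hL⟩ := g1p_prim_tendsto_smul f δ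
    exact hL.isBigO_one ℝ
  have hmd : MDiff (g1p_prim f) := by
    have hu : MDiff (g1p_u f) := (g1p_u_isCuspPeriodic f).1
    exact hu.const_smul _
  obtain ⟨c, hc⟩ := g1p_const_of_invariant_norm (Gamma1 M) M (g1p_prim f) hmd
    (fun γ hγ z => by rw [hinv γ hγ z]) hper hbdd
  ext τ
  have h1 := g1p_prim_hasDerivAt f τ
  have h2 : HasDerivAt (g1p_prim f ∘ ofComplex) 0 τ := by
    have : (g1p_prim f ∘ ofComplex) = fun _ => c := by
      funext w
      exact hc _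
    rw [this]
    exact hasDerivAt_const _ _
  exact h1.unique h2

theorem g1p_periodMap_ne_zero (f : CuspForm (Gamma1 M) 2) (hf : f ≠ 0) :
    g1p_periodMap M f ≠ 0 := fun h => hf (g1p_periodMap_eq_zero f h)

end Fermat.Agent.DS
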