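/-
DS / cell [PM], part 2 (abstract, Mathlib only): reduction of an eigenvector.

`H` a finitely generated abelian group with a family of endomorphisms `t i`; `v : H →+ E` a nonzero
simultaneous eigenvector of the precompositions, `v ∘ t i = λ i • v` (`E` a field).  Then

* `g1r_isIntegral`  : every `λ i` is integral over `ℤ` (Cayley–Hamilton on `H`);
* `g1r_descend`     : if `λ i = ι (β i)` for a subfield `ι : K → E`, there is a nonzero eigenvector
                      `w : H →+ K` with eigenvalues `β i` (compose with a `K`-linear functional);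
* `g1r_scale`       : for a valuation subring `A` of `K`, `w` can be scaled to take values in `A`
                      and the value `1` somewhere;
* `g1r_main`        : hence a nonzero eigenvector `c : H →+ ResidueField A` with eigenvalues
                      `residue (β i)` (the easy direction of the Deligne–Serre lifting lemma).
Prefix `g1r_`.
-/
import Mathlib

set_option autoImplicit false

noncomputable section

open Polynomial

namespace Fermat.Agent.DS

variable {H : Type*} [AddCommGroup H]

/-! ### Integrality -/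

theorem g1r_comp_pow {E : Type*} [Field E] (t : H →+ H) (v : H →+ E) (lam : E)
    (h : v.comp t = lam • v) (n : ℕ) (x : H) :
    v ((t.toIntLinearMap ^ n : Module.End ℤ H) x) = lam ^ n * v x := by
  induction n generalizing x with
  | zero => simp
  | succ n ih =>
    rw [pow_succ, Module.End.mul_apply, ih]
    have h1 : v (t x) = lam * v x := by
      have := DFunLike.congr_fun h x
      simpa using this
    show lam ^ n * v (t x) = _
    rw [h1]
    ring

theorem g1r_aeval {E : Type*} [Field E] (t : H →+ H) (v : H →+ E) (lam : E)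
    (h : v.comp t = lam • v) (P : ℤ[X]) (x : H) :
    v ((aeval (t.toIntLinearMap : Module.End ℤ H) P) x) = aeval lam P * v x := by
  induction P using Polynomial.induction_on' with
  | add P Q hP hQ => rw [map_add, map_add, LinearMap.add_apply, map_add, hP, hQ, add_mul]
  | monomial n a =>
    rw [aeval_monomial, aeval_monomial, Module.End.mul_apply, Module.algebraMap_end_apply,
      map_zsmul, g1r_comp_pow t v lam h, zsmul_eq_mul, eq_intCast]
    ring

/-- **the eigenvalues are algebraic integers** -/
theorem g1r_isIntegral [Module.Finite ℤ H] {E : Type*} [Field E] (t : H →+ H) (v : H →+ E)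
    (hv : v ≠ 0) (lam : E) (h : v.comp t = lam • v) : IsIntegral ℤ lam := by
  obtain ⟨P, hmonic, hP⟩ := LinearMap.exists_monic_and_aeval_eq_zero ℤ
    (t.toIntLinearMap : Module.End ℤ H)
  obtain ⟨x, hx⟩ : ∃ x, v x ≠ 0 := by
    by_contra hcon
    push Not at hcon
    exact hv (AddMonoidHom.ext hcon)
  have h1 := g1r_aeval t v lam h P x
  rw [hP, LinearMap.zero_apply, map_zero] at h1
  have h2 : aeval lam P = 0 := by
    rcases mul_eq_zero.mp h1.symm with h3 | h3
    · exact h3
    · exact absurd h3 hx
  exact ⟨P, hmonic, by rwa [← aeval_def]⟩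

/-! ### Descent of the field of coefficients -/

theorem g1r_descend {K E : Type*} [Field K] [Field E] (ι : K →+* E) (v : H →+ E) (hv : v ≠ 0) :
    ∃ φ : E →+ K, (∀ (a : K) (e : E), φ (ι a * e) = a * φ e) ∧ φ.comp v ≠ 0 := by
  let _ : Algebra K E := ι.toAlgebra
  obtain ⟨x, hx⟩ : ∃ x, v x ≠ 0 := by
    by_contra hcon
    push Not at hcon
    exact hv (AddMonoidHom.ext hcon)
  obtain ⟨f, hf⟩ := Module.Projective.exists_dual_ne_zero K hx
  refine ⟨f.toAddMonoidHom, fun a e => ?_, fun h0 => hf ?_⟩
  · have := f.map_smul a e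
    rw [Algebra.smul_def] at this
    exact this
  · exact DFunLike.congr_fun h0 x

theorem g1r_descend_eigen {K E : Type*} [Field K] [Field E] (ι : K →+* E) (v : H →+ E)
    (φ : E →+ K) (hφ : ∀ (a : K) (e : E), φ (ι a * e) = a * φ e) (t : H →+ H) (β : K)
    (h : v.comp t = ι β • v) : (φ.comp v).comp t = β • φ.comp v := by
  refine AddMonoidHom.ext fun x => ?_
  have h1 : v (t x) = ι β * v x := by
    have := DFunLike.congr_fun h x
    simpa using this
  show φ (v (t x)) = β * φ (v x)
  rw [h1, hφ]

/-! ### Scaling into a valuation ring -/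

theorem g1r_scale [Module.Finite ℤ H] {K : Type*} [Field K] (A : ValuationSubring K)
    (w : H →+ K) (hw : w ≠ 0) :
    ∃ (u : K) (w' : H →+ A), u ≠ 0 ∧ (∀ x, ((w' x : A) : K) = u⁻¹ * w x) ∧ ∃ x₀, w' x₀ = 1 := by
  classical
  obtain ⟨S, hS⟩ := (Module.finite_def.mp (inferInstance : Module.Finite ℤ H))
  -- some generator has a nonzero value
  have hne : ∃ s ∈ S, w s ≠ 0 := by
    by_contra hcon
    push Not at hcon
    apply hw
    refine AddMonoidHom.ext fun x => ?_
    have hx : x ∈ Submodule.span ℤ (S : Set H) := by rw [hS]; trivial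
    induction hx using Submodule.span_induction with
    | mem y hy => exact hcon y hy
    | zero => simp
    | add y z _ _ hy hz => rw [map_add, hy, hz]; simp
    | smul a y _ hy => rw [map_zsmul, hy]; simp
  have hSne : S.Nonempty := by
    obtain ⟨s, hs, -⟩ := hne
    exact ⟨s, hs⟩
  obtain ⟨s₀, hs₀, hmax⟩ := Finset.exists_max_image S (fun s => A.valuation (w s)) hSne
  have hu : w s₀ ≠ 0 := by
    obtain ⟨s, hs, hws⟩ := hne
    intro h0
    have := hmax s hs
    rw [h0, map_zero] at this
    exact hws ((map_eq_zero _).mp (le_antisymm this zero_le))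
  -- all values of `u⁻¹ • w` lie in `A`
  have hmem : ∀ x : H, (w s₀)⁻¹ * w x ∈ A := by
    intro x
    have hx : x ∈ Submodule.span ℤ (S : Set H) := by rw [hS]; trivial
    induction hx using Submodule.span_induction with
    | mem y hy =>
      rw [← A.valuation_le_one_iff, map_mul, map_inv₀]
      have hpos : A.valuation (w s₀) ≠ 0 := (_root_.map_ne_zero _).mpr hu
      rw [inv_mul_le_one₀ (zero_lt_iff.mpr hpos)]
      exact hmax y hy
    | zero => simp [A.zero_mem]
    | add y z _ _ hy hz =>
      rw [map_add, mul_add]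
      exact A.add_mem _ _ hy hz
    | smul a y _ hy =>
      rw [map_zsmul, zsmul_eq_mul, mul_left_comm]
      exact A.mul_mem _ _ (intCast_mem A a) hy
  refine ⟨w s₀, ⟨⟨fun x => ⟨(w s₀)⁻¹ * w x, hmem x⟩, ?_⟩, ?_⟩, hu, fun x => rfl, s₀, ?_⟩
  · apply Subtype.ext
    simp
  · intro x y
    apply Subtype.ext
    simp [mul_add]
  · apply Subtype.ext
    show (w s₀)⁻¹ * w s₀ = 1
    exact inv_mul_cancel₀ hu

/-! ### The reduction -/

theorem g1r_mem_of_isIntegral {K : Type*} [Field K] (A : ValuationSubring K) {x : K}
    (hx : IsIntegral ℤ x) : x ∈ A := by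
  have h1 : IsIntegral A.valuation.integer x := hx.tower_top
  have h2 := (Valuation.integer.integers A.valuation).mem_of_integral h1
  exact (A.valuation_le_one_iff x).mp h2

/-- **reduction of an eigenvector**: a nonzero simultaneous eigenvector in `Hom(H, E)` with
eigenvalues `ι (β i)` gives a nonzero simultaneous eigenvector in `Hom(H, k_A)` with eigenvalues
`residue (β i)`, for every valuation subring `A` of `K` -/
theorem g1r_main [Module.Finite ℤ H] {K E : Type*} [Field K] [Field E] (ι : K →+* E)
    (A : ValuationSubring K) {I : Type*} (t : I → (H →+ H)) (β : I → K) (v : H →+ E)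
    (hv : v ≠ 0) (hev : ∀ i, v.comp (t i) = ι (β i) • v) :
    (∀ i, IsIntegral ℤ (β i)) ∧ ∃ hA : ∀ i, β i ∈ A,
      ∃ c : H →+ IsLocalRing.ResidueField A, c ≠ 0 ∧ (∀ x, v x = 0 → c x = 0) ∧
        ∀ i, c.comp (t i) = IsLocalRing.residue A ⟨β i, hA i⟩ • c := by
  have hint : ∀ i, IsIntegral ℤ (β i) := by
    intro i
    have h1 := g1r_isIntegral (t i) v hv _ (hev i)
    exact (isIntegral_algHom_iff (ι.toIntAlgHom) ι.injective).mp h1
  have hA : ∀ i, β i ∈ A := fun i => g1r_mem_of_isIntegral A (hint i)
  refine ⟨hint, hA, ?_⟩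
  obtain ⟨φ, hφ, hφv⟩ := g1r_descend ι v hv
  obtain ⟨u, w', hu, hw', x₀, hx₀⟩ := g1r_scale A (φ.comp v) hφv
  refine ⟨(IsLocalRing.residue A).toAddMonoidHom.comp w', fun h0 => ?_, fun x hx => ?_,
    fun i => ?_⟩
  · have h1 := DFunLike.congr_fun h0 x₀
    simp only [AddMonoidHom.comp_apply, hx₀, AddMonoidHom.zero_apply] at h1
    have h2 : (IsLocalRing.residue A) (1 : A) = 0 := h1
    rw [map_one] at h2
    exact one_ne_zero h2
  · have h1 : w' x = 0 := by
      apply Subtype.ext
      rw [hw']
      show u⁻¹ * φ (v x) = 0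
      rw [hx, map_zero, mul_zero]
    show (IsLocalRing.residue A) (w' x) = 0
    rw [h1, map_zero]
  · refine AddMonoidHom.ext fun x => ?_
    have h1 := DFunLike.congr_fun (g1r_descend_eigen ι v φ hφ (t i) (β i) (hev i)) x
    have h2 : w' (t i x) = ⟨β i, hA i⟩ * w' x := by
      apply Subtype.ext
      rw [hw']
      show u⁻¹ * (φ.comp v) (t i x) = β i * ((w' x : A) : K)
      rw [hw']
      have h3 : (φ.comp v) (t i x) = β i * (φ.comp v) x := by simpa using h1
      rw [h3]
      ring
    show (IsLocalRing.residue A) (w' (t i x)) =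
      IsLocalRing.residue A ⟨β i, hA i⟩ * (IsLocalRing.residue A) (w' x)
    rw [h2, map_mul]

end Fermat.Agent.DS
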