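/-
DS / cell [PM], part 3: FROM `ds_W2` TO THE MOD-`ℓ` EIGENCLASS.

* `g1m_seamTint` — the eigenvalues of a weight-two eigen-datum on `Γ₁(M)` are
  algebraic integers;
* `g1m_main` — for every valuation subring `A` of `Q̄` the period class of the datum reduces to a
  nonzero class `c : Γ₁(M) → k_A` killing the parabolic and elliptic elements, which is a
  simultaneous eigenvector of all `g1t_Tadd hpM` (eigenvalue `residue (β p)`) and of all
  `g1t_diamAdd d` (eigenvalue `χ d`), with `residue (c p) = χ(p) · p`.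
Prefix `g1m_`.
-/
import Mathlib
import Fermat.Agent.DS.Defs
import Fermat.Agent.DS.HeckeG1.EigenW2
import Fermat.Agent.DS.HeckeG1.PeriodPar
import Fermat.Agent.DS.HeckeG1.Ab
import Fermat.Agent.DS.HeckeG1.Reduce

set_option autoImplicit false
set_option linter.unusedSectionVars false

noncomputable section

open CongruenceSubgroup Matrix.SpecialLinearGroup
open scoped MatrixGroups ModularForm
open Fermat.Agent.JT3

namespace Fermat.Agent.DS

/-- **integrality** (the former seam `ds_SeamTint` of `Seams.lean` v1): the eigenvalues of a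
weight-two eigen-datum on `Γ₁(M)` are algebraic integers -/
theorem g1m_seamTint (M : ℕ) [NeZero M] (ψ : DirichletCharacter ℂ M)
    (g : CuspForm (Gamma1 M) 2) (b : ℕ → ℂ) (h : ds_W2 M ψ g b) (p : ℕ) (hp : p.Prime)
    (hpM : ¬ p ∣ M) : IsIntegral ℤ (b p) := by
  have : Fact p.Prime := ⟨hp⟩
  have hv := g1h_lift_ne_zero (g1p_periodMap_ne_zero g h.ne_zero)
  exact g1r_isIntegral (g1h_T hpM) (g1h_lift (g1p_periodMap M g)) hv (b p)
    (g1h_lift_comp_T hpM _ (b p) (g1e_periodMap_T h hpM))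

variable {M : ℕ} [NeZero M]

/-- the index set of the operators: the good primes and the diamonds -/
abbrev g1m_I (M : ℕ) : Type := {p : ℕ // p.Prime ∧ ¬ p ∣ M} ⊕ (ZMod M)ˣ

/-- the operators on `H = Γ₁(M)^ab` -/
def g1m_t : g1m_I M → (g1h_Ab M →+ g1h_Ab M)
  | Sum.inl p => @g1h_T M _ p.1 ⟨p.2.1⟩ p.2.2
  | Sum.inr d => g1h_diam d

theorem g1m_exists_prime (d : (ZMod M)ˣ) :
    ∃ q : ℕ, q.Prime ∧ ¬ q ∣ M ∧ ((q : ℕ) : ZMod M) = (d : ZMod M) := by
  obtain ⟨q, hqgt, hq, hqeq⟩ := Nat.forall_exists_prime_gt_and_eq_mod d.isUnit M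
  exact ⟨q, hq, Nat.not_dvd_of_pos_of_lt (NeZero.pos M) hqgt, hqeq⟩

/-- **from a weight-two eigen-datum to a mod-`𝔪_A` eigenclass** -/
theorem g1m_main (ψ : DirichletCharacter ℂ M) (g : CuspForm (Gamma1 M) 2) (b : ℕ → ℂ)
    (h : ds_W2 M ψ g b) (β cc : ℕ → ds_Qb)
    (hβ : ∀ p : ℕ, p.Prime → ¬ p ∣ M →
      ds_iota (β p) = b p ∧ ds_iota (cc p) = ψ (p : ZMod M) * (p : ℂ))
    (A : ValuationSubring ds_Qb) :
    ∃ (c : Additive (Gamma1 M) →+ IsLocalRing.ResidueField A)
      (χ : (ZMod M)ˣ →* (IsLocalRing.ResidueField A)ˣ),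
      c ≠ 0 ∧
      (∀ γ : Gamma1 M, ((γ : SL(2, ℤ)) : Matrix (Fin 2) (Fin 2) ℤ).trace ^ 2 ≤ 4 →
        c (Additive.ofMul γ) = 0) ∧
      (∀ d : (ZMod M)ˣ, g1t_diamAdd d c = (χ d : IsLocalRing.ResidueField A) • c) ∧
      ∀ (p : ℕ) [Fact p.Prime] (hpM : ¬ p ∣ M), ∃ (hb : β p ∈ A) (hc : cc p ∈ A),
        g1t_Tadd hpM c = IsLocalRing.residue A ⟨β p, hb⟩ • c ∧
        IsLocalRing.residue A ⟨cc p, hc⟩ =
          (χ (g1t_pU hpM) : IsLocalRing.ResidueField A) * (p : IsLocalRing.ResidueField A) := by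
  classical
  -- algebraic models of the values of `ψ`
  choose q hq hqM hqd using fun d : (ZMod M)ˣ => g1m_exists_prime d
  set e : (ZMod M)ˣ → ds_Qb := fun d => cc (q d) / (q d : ds_Qb) with he
  have hq0 : ∀ d, ((q d : ℕ) : ℂ) ≠ 0 := fun d => by exact_mod_cast (hq d).ne_zero
  have hιe : ∀ d : (ZMod M)ˣ, ds_iota (e d) = ψ (d : ZMod M) := by
    intro d
    show ds_iota (cc (q d) / (q d : ds_Qb)) = _
    rw [map_div₀, (hβ (q d) (hq d) (hqM d)).2, map_natCast ds_iota, hqd d,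
      mul_div_cancel_right₀ _ (hq0 d)]
  have hιinj : Function.Injective ds_iota := ds_iota_injective
  -- the eigenvalues
  set βI : g1m_I M → ds_Qb := fun i => Sum.elim (fun p => β p.1) e i with hβI
  have hv := g1h_lift_ne_zero (g1p_periodMap_ne_zero g h.ne_zero)
  have hev : ∀ i : g1m_I M, (g1h_lift (g1p_periodMap M g)).comp (g1m_t i) =
      (ds_iota : ds_Qb →+* ℂ) (βI i) • g1h_lift (g1p_periodMap M g) := by
    rintro (p | d)
    · have : Fact p.1.Prime := ⟨p.2.1⟩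
      show (g1h_lift (g1p_periodMap M g)).comp (g1h_T p.2.2) = ds_iota (β p.1) • _
      rw [(hβ p.1 p.2.1 p.2.2).1]
      exact g1h_lift_comp_T p.2.2 _ (b p.1) (g1e_periodMap_T h p.2.2)
    · show (g1h_lift (g1p_periodMap M g)).comp (g1h_diam d) = ds_iota (e d) • _
      rw [hιe d]
      exact g1h_lift_comp_diam d _ (ψ (d : ZMod M)) (g1e_periodMap_diam h d)
  obtain ⟨-, hA, cH, hcH, hker, heig⟩ := g1r_main (ds_iota : ds_Qb →+* ℂ) A g1m_t βI
    (g1h_lift (g1p_periodMap M g)) hv hev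
  -- the character
  have he_mul : ∀ d d' : (ZMod M)ˣ, e (d * d') = e d * e d' := by
    intro d d'
    apply hιinj
    rw [map_mul, hιe, hιe, hιe, Units.val_mul, map_mul]
  have he_one : e 1 = 1 := by
    apply hιinj
    rw [hιe, map_one, Units.val_one, map_one]
  let E : (ZMod M)ˣ →* A :=
    { toFun := fun d => ⟨e d, hA (Sum.inr d)⟩
      map_one' := Subtype.ext he_one
      map_mul' := fun d d' => Subtype.ext (he_mul d d') }
  let χ : (ZMod M)ˣ →* (IsLocalRing.ResidueField A)ˣ :=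
    ((IsLocalRing.residue A).toMonoidHom.comp E).toHomUnits
  have hχ : ∀ d, (χ d : IsLocalRing.ResidueField A) =
      IsLocalRing.residue A ⟨e d, hA (Sum.inr d)⟩ := fun d => rfl
  refine ⟨cH.comp (g1h_of M), χ, ?_, ?_, ?_, ?_⟩
  · intro h0
    apply hcH
    exact g1h_hom_ext fun x => by
      have := DFunLike.congr_fun h0 x
      simpa using this
  · intro γ hγ
    rw [AddMonoidHom.comp_apply]
    apply hker
    rw [g1h_lift_of]
    exact g1p_periodMap_parEll g γ hγ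
  · intro d
    rw [hχ d]
    exact g1h_diamAdd_comp_of d cH _ (heig (Sum.inr d))
  · intro p _ hpM
    have hp : p.Prime := Fact.out
    have hcc : cc p = e (g1t_pU hpM) * (p : ds_Qb) := by
      apply hιinj
      rw [map_mul, hιe, map_natCast, (hβ p hp hpM).2, g1t_pU_coe]
    have hb : β p ∈ A := hA (Sum.inl ⟨p, hp, hpM⟩)
    have hc : cc p ∈ A := by
      rw [hcc]
      exact A.mul_mem _ _ (hA (Sum.inr (g1t_pU hpM))) (natCast_mem A p)
    refine ⟨hb, hc, ?_, ?_⟩
    · exact g1h_Tadd_comp_of hpM cH _ (heig (Sum.inl ⟨p, hp, hpM⟩))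
    · rw [hχ]
      have h1 : (⟨cc p, hc⟩ : A) = ⟨e (g1t_pU hpM), hA (Sum.inr (g1t_pU hpM))⟩ * (p : A) := by
        apply Subtype.ext
        show cc p = e (g1t_pU hpM) * ((p : A) : ds_Qb)
        rw [hcc]
        simp
      rw [h1, map_mul, map_natCast]

end Fermat.Agent.DS
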