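/-
DS / Hecke operators for `Γ₁(M)`, part 6: `T_p` and `⟨d⟩` preserve the characters of `Γ₁(M)`
killing the parabolic and the elliptic elements (`tr² ≤ 4`), hence descend to
`H_par = Γ₁(M)^ab / (par, ell)` (`= H₁(X₁(M), ℤ)`).  Port of `JT3/T2/ParEll.lean`.

* `g1t_IsParEll γ` : `tr(γ)² ≤ 4`;
* `g1t_TS_parEll`, `g1t_T_parEll`, `g1t_Tadd_parEll`, `g1t_conjOp_parEll`, `g1t_diam_parEll`,
  `g1t_diamAdd_parEll`;
* `g1h_Hpar M`, `g1h_mkPar`, `g1h_liftPar`, `g1h_Tpar hpM`, `g1h_diamPar d` and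
  `ψ ∘ T ∘ mk = T_p (ψ ∘ mk)`.
Prefix `g1t_` / `g1h_`.
-/
import Mathlib
import Fermat.Agent.DS.HeckeG1.Ab

set_option autoImplicit false
set_option linter.unusedSectionVars false

noncomputable section

open CongruenceSubgroup Matrix.SpecialLinearGroup Function
open P2MW.S_ModularForm_heckeT_slash_eq_self_of_mem_Gamma0.ModularForm.HeckeSlashInvariance
open scoped MatrixGroups
open Fermat.Agent.JT3

namespace Fermat.Agent.DS

variable {M : ℕ}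

/-- `γ ∈ Γ₁(M)` is parabolic (or `±1`) or elliptic: `tr(γ)² ≤ 4` -/
def g1t_IsParEll (γ : Gamma1 M) : Prop :=
  ((γ : SL(2, ℤ)) : Matrix (Fin 2) (Fin 2) ℤ).trace ^ 2 ≤ 4

theorem g1t_parEll_pow (γ : Gamma1 M) (h : g1t_IsParEll γ) (r : ℕ) : g1t_IsParEll (γ ^ r) := by
  unfold g1t_IsParEll at h ⊢
  rw [SubgroupClass.coe_pow]
  exact t2e_trace_pow_sq_le _ h r

theorem g1t_parEll_conj (σ : Gamma0 M) (γ : Gamma1 M) (h : g1t_IsParEll γ) :
    g1t_IsParEll (g1t_conj σ γ) := by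
  unfold g1t_IsParEll at h ⊢
  rw [g1t_conj_coe, Matrix.SpecialLinearGroup.coe_mul, Matrix.SpecialLinearGroup.coe_mul,
    Matrix.trace_mul_cycle, ← Matrix.SpecialLinearGroup.coe_mul, inv_mul_cancel,
    Matrix.SpecialLinearGroup.coe_one, one_mul]
  exact h

variable {p : ℕ} [Fact p.Prime]

/-! ### The cocycle along a cycle -/

theorem g1t_perm_pow (γ : Gamma1 M) (i : ℕ) (x : OnePoint (ZMod p)) :
    ((t2c_perm ((γ : Gamma1 M) : SL(2, ℤ))) ^ i) x =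
      t2c_act (((γ ^ i : Gamma1 M)) : SL(2, ℤ)) x := by
  induction i with
  | zero => simp [t2c_act_one]
  | succ i ih =>
    rw [pow_succ', Equiv.Perm.mul_apply, ih, t2c_perm_apply, ← t2c_act_mul, ← Subgroup.coe_mul,
      ← pow_succ]

theorem g1t_cocG_pow (hpM : ¬ p ∣ M) {s : OnePoint (ZMod p) → Gamma0 M} {e : (ZMod M)ˣ}
    (hs : g1t_Adm hpM s e) {A : Type*} [CommMonoid A] (χ : Gamma1 M →* A)
    (x : OnePoint (ZMod p)) (γ : Gamma1 M) (r : ℕ) :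
    χ (g1t_cocG hpM hs x (γ ^ r)) =
      ∏ i ∈ Finset.range r,
        χ (g1t_cocG hpM hs (((t2c_perm ((γ : Gamma1 M) : SL(2, ℤ))) ^ i) x) γ) := by
  induction r with
  | zero => simp [g1t_cocG_one]
  | succ r ih =>
    rw [pow_succ, g1t_cocG_mul, map_mul, ih, Finset.prod_range_succ, g1t_perm_pow]

/-- the cocycle at a fixed point is conjugate to the element: same trace -/
theorem g1t_trace_cocG (hpM : ¬ p ∣ M) {s : OnePoint (ZMod p) → Gamma0 M} {e : (ZMod M)ˣ}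
    (hs : g1t_Adm hpM s e) (x : OnePoint (ZMod p)) (γ : Gamma1 M)
    (hfix : t2c_act ((γ : Gamma1 M) : SL(2, ℤ)) x = x) :
    (((g1t_cocG hpM hs x γ : Gamma1 M) : SL(2, ℤ)) : Matrix (Fin 2) (Fin 2) ℤ).trace =
      (((γ : Gamma1 M) : SL(2, ℤ)) : Matrix (Fin 2) (Fin 2) ℤ).trace := by
  have h := g1t_cocG_spec hpM hs x γ
  rw [hfix] at h
  have h2 : mapGL ℝ ((g1t_cocG hpM hs x γ : Gamma1 M) : SL(2, ℤ)) =
      g1t_repS s x * mapGL ℝ ((γ : Gamma1 M) : SL(2, ℤ)) * (g1t_repS s x)⁻¹ := by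
    rw [h, mul_assoc, mul_inv_cancel, mul_one]
  have h3 := congrArg (fun g : GL (Fin 2) ℝ => (g : Matrix (Fin 2) (Fin 2) ℝ).trace) h2
  simp only [Units.val_mul] at h3
  rw [Matrix.trace_mul_cycle, ← Units.val_mul, inv_mul_cancel, Units.val_one, one_mul] at h3
  have hcast : ∀ g : SL(2, ℤ), ((mapGL ℝ g : GL (Fin 2) ℝ) : Matrix (Fin 2) (Fin 2) ℝ).trace =
      (((g : Matrix (Fin 2) (Fin 2) ℤ).trace : ℤ) : ℝ) := by
    intro g
    simp [Matrix.trace_fin_two]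
  rw [hcast, hcast] at h3
  exact_mod_cast h3

/-! ### The operators preserve the characters killing the parabolic and elliptic elements -/

theorem g1t_TS_parEll (hpM : ¬ p ∣ M) {s : OnePoint (ZMod p) → Gamma0 M} {e : (ZMod M)ˣ}
    (hs : g1t_Adm hpM s e) {A : Type*} [CommMonoid A] (χ : Gamma1 M →* A)
    (hχ : ∀ γ : Gamma1 M, g1t_IsParEll γ → χ γ = 1) (γ : Gamma1 M) (hγ : g1t_IsParEll γ) :
    g1t_TS hpM hs χ γ = 1 := by
  rw [g1t_TS_apply]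
  refine t2e_prod_eq_one_of_orbits (t2c_perm ((γ : Gamma1 M) : SL(2, ℤ)))
    (fun x => χ (g1t_cocG hpM hs x γ)) ?_
  intro x r _ hfix
  rw [← g1t_cocG_pow]
  apply hχ
  have hfix' : t2c_act (((γ ^ r : Gamma1 M)) : SL(2, ℤ)) x = x := by
    rw [← g1t_perm_pow]; exact hfix
  unfold g1t_IsParEll
  rw [g1t_trace_cocG hpM hs x (γ ^ r) hfix']
  exact g1t_parEll_pow γ hγ r

theorem g1t_conjOp_parEll (σ : Gamma0 M) {A : Type*} [CommMonoid A] (χ : Gamma1 M →* A)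
    (hχ : ∀ γ : Gamma1 M, g1t_IsParEll γ → χ γ = 1) (γ : Gamma1 M) (hγ : g1t_IsParEll γ) :
    g1t_conjOp σ χ γ = 1 := by
  rw [g1t_conjOp_apply]
  exact hχ _ (g1t_parEll_conj σ γ hγ)

variable [NeZero M]

theorem g1t_T_parEll (hpM : ¬ p ∣ M) {A : Type*} [CommMonoid A] (χ : Gamma1 M →* A)
    (hχ : ∀ γ : Gamma1 M, g1t_IsParEll γ → χ γ = 1) (γ : Gamma1 M) (hγ : g1t_IsParEll γ) :
    g1t_T hpM χ γ = 1 :=
  g1t_TS_parEll hpM (g1t_s_adm hpM) χ hχ γ hγ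

theorem g1t_diam_parEll (d : (ZMod M)ˣ) {A : Type*} [CommMonoid A] (χ : Gamma1 M →* A)
    (hχ : ∀ γ : Gamma1 M, g1t_IsParEll γ → χ γ = 1) (γ : Gamma1 M) (hγ : g1t_IsParEll γ) :
    g1t_diam d χ γ = 1 :=
  g1t_conjOp_parEll (g1t_sigma d) χ hχ γ hγ

theorem g1t_Tadd_parEll (hpM : ¬ p ∣ M) {B : Type*} [AddCommMonoid B]
    (ψ : Additive (Gamma1 M) →+ B)
    (hψ : ∀ γ : Gamma1 M, g1t_IsParEll γ → ψ (Additive.ofMul γ) = 0) (γ : Gamma1 M)
    (hγ : g1t_IsParEll γ) : g1t_Tadd hpM ψ (Additive.ofMul γ) = 0 := by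
  have h := g1t_T_parEll hpM (AddMonoidHom.toMultiplicativeRight ψ)
    (fun γ hγ => by
      show Multiplicative.ofAdd (ψ (Additive.ofMul γ)) = 1
      rw [hψ γ hγ]; rfl) γ hγ
  rw [g1t_T_apply] at h
  rw [g1t_Tadd_apply]
  have h2 : Multiplicative.ofAdd (∑ x : OnePoint (ZMod p), ψ (Additive.ofMul (g1t_coc hpM x γ)))
      = 1 := by
    rw [ofAdd_sum]
    exact h
  exact h2

theorem g1t_diamAdd_parEll (d : (ZMod M)ˣ) {B : Type*} [AddCommMonoid B]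
    (ψ : Additive (Gamma1 M) →+ B)
    (hψ : ∀ γ : Gamma1 M, g1t_IsParEll γ → ψ (Additive.ofMul γ) = 0) (γ : Gamma1 M)
    (hγ : g1t_IsParEll γ) : g1t_diamAdd d ψ (Additive.ofMul γ) = 0 := by
  rw [g1t_diamAdd_apply]
  exact hψ _ (g1t_parEll_conj _ γ hγ)

/-! ### `H_par = Γ₁(M)^ab / (parabolic, elliptic)` -/

variable (M) in
/-- the subgroup of `Γ₁(M)^ab` generated by the parabolic and the elliptic elements -/
def g1h_rel : AddSubgroup (g1h_Ab M) :=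
  AddSubgroup.closure {x | ∃ γ : Gamma1 M, g1t_IsParEll γ ∧ g1h_of M (Additive.ofMul γ) = x}

variable (M) in
/-- **`H_par := Γ₁(M)^ab / (parabolic, elliptic)`** (`= H₁(X₁(M), ℤ)`) -/
abbrev g1h_Hpar : Type := g1h_Ab M ⧸ g1h_rel M

variable (M) in
/-- the projection `Γ₁(M) → H_par` -/
def g1h_mkPar : Additive (Gamma1 M) →+ g1h_Hpar M :=
  (QuotientAddGroup.mk' (g1h_rel M)).comp (g1h_of M)

theorem g1h_mkPar_surjective : Function.Surjective (g1h_mkPar M) :=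
  (QuotientAddGroup.mk'_surjective (g1h_rel M)).comp (g1h_of_surjective M)

theorem g1h_mkPar_parEll (γ : Gamma1 M) (h : g1t_IsParEll γ) :
    g1h_mkPar M (Additive.ofMul γ) = 0 := by
  change (QuotientAddGroup.mk' (g1h_rel M)) (g1h_of M (Additive.ofMul γ)) = 0
  rw [QuotientAddGroup.mk'_apply, QuotientAddGroup.eq_zero_iff]
  exact AddSubgroup.subset_closure ⟨γ, h, rfl⟩

variable {B : Type*} [AddCommGroup B]

/-- **universal property of `H_par`** -/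
def g1h_liftPar (φ : Additive (Gamma1 M) →+ B)
    (hφ : ∀ γ : Gamma1 M, g1t_IsParEll γ → φ (Additive.ofMul γ) = 0) : g1h_Hpar M →+ B :=
  QuotientAddGroup.lift (g1h_rel M) (g1h_lift φ) (by
    rw [g1h_rel, AddSubgroup.closure_le]
    rintro x ⟨γ, hγ, rfl⟩
    rw [SetLike.mem_coe, AddMonoidHom.mem_ker, g1h_lift_of]
    exact hφ γ hγ)

@[simp]
theorem g1h_liftPar_mk (φ : Additive (Gamma1 M) →+ B)
    (hφ : ∀ γ : Gamma1 M, g1t_IsParEll γ → φ (Additive.ofMul γ) = 0)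
    (x : Additive (Gamma1 M)) : g1h_liftPar φ hφ (g1h_mkPar M x) = φ x := by
  change QuotientAddGroup.lift (g1h_rel M) (g1h_lift φ) _ (QuotientAddGroup.mk (g1h_of M x)) = _
  rw [QuotientAddGroup.lift_mk, g1h_lift_of]

theorem g1h_par_hom_ext {ψ ψ' : g1h_Hpar M →+ B}
    (h : ∀ x, ψ (g1h_mkPar M x) = ψ' (g1h_mkPar M x)) : ψ = ψ' := by
  refine AddMonoidHom.ext fun y => ?_
  obtain ⟨x, rfl⟩ := g1h_mkPar_surjective y
  exact h x

theorem g1h_comp_mkPar_parEll (ψ : g1h_Hpar M →+ B) (γ : Gamma1 M) (h : g1t_IsParEll γ) :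
    (ψ.comp (g1h_mkPar M)) (Additive.ofMul γ) = 0 := by
  rw [AddMonoidHom.comp_apply, g1h_mkPar_parEll γ h, map_zero]

variable (M) in
instance g1h_fg_par : AddGroup.FG (g1h_Hpar M) :=
  AddGroup.fg_of_surjective (QuotientAddGroup.mk'_surjective (g1h_rel M))

variable (M) in
instance g1h_finite_par : Module.Finite ℤ (g1h_Hpar M) :=
  Module.Finite.iff_addGroup_fg.mpr (g1h_fg_par M)

/-- the Hecke operator `T_p` on `H_par` -/
def g1h_Tpar (hpM : ¬ p ∣ M) : g1h_Hpar M →+ g1h_Hpar M :=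
  g1h_liftPar (g1t_Tadd hpM (g1h_mkPar M))
    (fun γ hγ => g1t_Tadd_parEll hpM (g1h_mkPar M) (fun γ' hγ' => g1h_mkPar_parEll γ' hγ') γ hγ)

/-- the diamond operator `⟨d⟩` on `H_par` -/
def g1h_diamPar (d : (ZMod M)ˣ) : g1h_Hpar M →+ g1h_Hpar M :=
  g1h_liftPar (g1t_diamAdd d (g1h_mkPar M))
    (fun γ hγ => g1t_diamAdd_parEll d (g1h_mkPar M) (fun γ' hγ' => g1h_mkPar_parEll γ' hγ') γ hγ)

theorem g1h_Tpar_mk (hpM : ¬ p ∣ M) (γ : Gamma1 M) :
    g1h_Tpar hpM (g1h_mkPar M (Additive.ofMul γ)) =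
      ∑ x : OnePoint (ZMod p), g1h_mkPar M (Additive.ofMul (g1t_coc hpM x γ)) := by
  rw [g1h_Tpar, g1h_liftPar_mk, g1t_Tadd_apply]

theorem g1h_diamPar_mk (d : (ZMod M)ˣ) (γ : Gamma1 M) :
    g1h_diamPar d (g1h_mkPar M (Additive.ofMul γ)) =
      g1h_mkPar M (Additive.ofMul (g1t_conj (g1t_sigma d) γ)) := by
  rw [g1h_diamPar, g1h_liftPar_mk, g1t_diamAdd_apply]

/-- `ψ ∘ T ∘ mk = T_p (ψ ∘ mk)` for every `ψ : H_par → B` -/
theorem g1h_comp_Tpar (hpM : ¬ p ∣ M) (ψ : g1h_Hpar M →+ B) :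
    (ψ.comp (g1h_Tpar hpM)).comp (g1h_mkPar M) = g1t_Tadd hpM (ψ.comp (g1h_mkPar M)) := by
  rw [g1t_Tadd_comp]
  refine AddMonoidHom.ext fun γ => ?_
  rw [AddMonoidHom.comp_apply, AddMonoidHom.comp_apply, AddMonoidHom.comp_apply, g1h_Tpar,
    g1h_liftPar_mk]

theorem g1h_comp_diamPar (d : (ZMod M)ˣ) (ψ : g1h_Hpar M →+ B) :
    (ψ.comp (g1h_diamPar d)).comp (g1h_mkPar M) = g1t_diamAdd d (ψ.comp (g1h_mkPar M)) := by
  rw [g1t_diamAdd_comp]
  refine AddMonoidHom.ext fun γ => ?_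
  rw [AddMonoidHom.comp_apply, AddMonoidHom.comp_apply, AddMonoidHom.comp_apply, g1h_diamPar,
    g1h_liftPar_mk]

/-- the diamonds act on `H_par` through a group action: `⟨d d'⟩ = ⟨d'⟩ ∘ ⟨d⟩` -/
theorem g1h_diamPar_mul (d d' : (ZMod M)ˣ) :
    g1h_diamPar (d * d') = (g1h_diamPar d').comp (g1h_diamPar d) := by
  refine g1h_par_hom_ext fun x => ?_
  have h1 := DFunLike.congr_fun (g1t_diamAdd_mul d d' (g1h_mkPar M)) x
  have h2 := DFunLike.congr_fun (g1h_comp_diamPar (d * d') (AddMonoidHom.id _)) x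
  have h3 := DFunLike.congr_fun (g1h_comp_diamPar d (g1h_diamPar d')) x
  have h4 : g1t_diamAdd d' (g1h_mkPar M) = (g1h_diamPar d').comp (g1h_mkPar M) := by
    have := g1h_comp_diamPar d' (AddMonoidHom.id (g1h_Hpar M))
    simpa using this.symm
  simp only [AddMonoidHom.comp_apply, AddMonoidHom.id_comp] at h2 h3
  rw [AddMonoidHom.comp_apply, h2, h1, h4]
  exact h3.symm

theorem g1h_diamPar_one : g1h_diamPar (1 : (ZMod M)ˣ) = AddMonoidHom.id (g1h_Hpar M) := by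
  refine g1h_par_hom_ext fun x => ?_
  have h2 := DFunLike.congr_fun (g1h_comp_diamPar 1 (AddMonoidHom.id (g1h_Hpar M))) x
  simp only [AddMonoidHom.comp_apply, AddMonoidHom.id_comp] at h2
  rw [h2, g1t_diamAdd_one]
  rfl

/-- `T_p` and `⟨d⟩` commute on `H_par` -/
theorem g1h_Tpar_diamPar (hpM : ¬ p ∣ M) (d : (ZMod M)ˣ) :
    (g1h_Tpar hpM).comp (g1h_diamPar d) = (g1h_diamPar d).comp (g1h_Tpar hpM) := by
  refine g1h_par_hom_ext fun x => ?_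
  have hT : g1t_Tadd hpM (g1h_mkPar M) = (g1h_Tpar hpM).comp (g1h_mkPar M) := by
    have := g1h_comp_Tpar hpM (AddMonoidHom.id (g1h_Hpar M))
    simpa using this.symm
  have hD : g1t_diamAdd d (g1h_mkPar M) = (g1h_diamPar d).comp (g1h_mkPar M) := by
    have := g1h_comp_diamPar d (AddMonoidHom.id (g1h_Hpar M))
    simpa using this.symm
  have h1 := DFunLike.congr_fun (g1h_comp_diamPar d (g1h_Tpar hpM)) x
  have h2 := DFunLike.congr_fun (g1h_comp_Tpar hpM (g1h_diamPar d)) x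
  simp only [AddMonoidHom.comp_apply] at h1 h2
  rw [AddMonoidHom.comp_apply, AddMonoidHom.comp_apply, h1, h2, ← hT, ← hD, g1t_Tadd_diamAdd]

end Fermat.Agent.DS
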