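/-
DS / Hecke operators for `Γ₁(M)`, part 7: the operators `T_p`, `T_q` (`p, q ∤ M` primes) on
`Hom(Γ₁(M), A)` commute (prefix `g1k_`).

The twisted product systems `(s'_y β_y)(s_x α_x)` and `(s_x α_x)(s'_y β_y)` are `Γ₀(M)`-translates of
the plain product systems `β_y α_x`, `α_x β_y` of `JT3/T2/Comm.lean`; the translating elements have
a character determined by the lower right entries, so the plain matching (`t2k_match`) lifts to a
`Γ₁(M)`-matching, and the abstract comparison `t2k_prod_eq` applies with `Γ = Γ₁(M)`.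
-/
import Mathlib
import Fermat.Agent.DS.HeckeG1.ParEll

set_option autoImplicit false
set_option linter.unusedSectionVars false
set_option linter.unusedSimpArgs false

noncomputable section

open CongruenceSubgroup Matrix.SpecialLinearGroup Function
open P2MW.S_ModularForm_heckeT_slash_eq_self_of_mem_Gamma0.ModularForm.HeckeSlashInvariance
open scoped MatrixGroups
open OnePoint
open Fermat.Agent.JT3

namespace Fermat.Agent.DS

variable {M p q : ℕ} [Fact p.Prime] [Fact q.Prime]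

/-- the embedding of `Γ₁(M)` into `GL(2, ℝ)` -/
def g1k_iota (M : ℕ) : Gamma1 M →* GL (Fin 2) ℝ := (mapGL ℝ).comp (Gamma1 M).subtype

theorem g1k_iota_apply (γ : Gamma1 M) : g1k_iota M γ = mapGL ℝ (γ : SL(2, ℤ)) := rfl

theorem g1k_iota_injective : Function.Injective (g1k_iota M) := by
  intro γ γ' h
  exact Subtype.ext (mapGL_injective h)

/-! ### Twisted product systems as translates of the plain ones -/

/-- the `Γ₀(M)`-element translating the plain product system into the twisted one -/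
def g1k_g (hqM : ¬ q ∣ M) (s : OnePoint (ZMod p) → Gamma0 M) (t : OnePoint (ZMod q) → Gamma0 M)
    (x : OnePoint (ZMod p)) (y : OnePoint (ZMod q)) : Gamma0 M :=
  t y * t2c_coc hqM y (s x)

theorem g1k_R_eq (hqM : ¬ q ∣ M) (s : OnePoint (ZMod p) → Gamma0 M)
    (t : OnePoint (ZMod q) → Gamma0 M) (x : OnePoint (ZMod p)) (y : OnePoint (ZMod q)) :
    g1t_repS t y * g1t_repS s x =
      mapGL ℝ ((g1k_g hqM s t x y : Gamma0 M) : SL(2, ℤ)) *
        (heckeRep q (t2c_act ((s x : Gamma0 M) : SL(2, ℤ)) y) * heckeRep p x) := by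
  have h := t2c_coc_spec hqM y (s x)
  rw [g1t_repS, g1t_repS, g1k_g, Subgroup.coe_mul, map_mul]
  calc mapGL ℝ ((t y : Gamma0 M) : SL(2, ℤ)) * heckeRep q y *
        (mapGL ℝ ((s x : Gamma0 M) : SL(2, ℤ)) * heckeRep p x)
      = mapGL ℝ ((t y : Gamma0 M) : SL(2, ℤ)) *
          (heckeRep q y * mapGL ℝ ((s x : Gamma0 M) : SL(2, ℤ))) * heckeRep p x := by
        simp only [mul_assoc]
    _ = _ := by
        rw [h]
        simp only [mul_assoc]

theorem g1k_chi_g (hpM : ¬ p ∣ M) (hqM : ¬ q ∣ M) {s : OnePoint (ZMod p) → Gamma0 M}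
    {t : OnePoint (ZMod q) → Gamma0 M} {ep eq : (ZMod M)ˣ} (hs : g1t_Adm hpM s ep)
    (ht : g1t_Adm hqM t eq) (x : OnePoint (ZMod p)) (y : OnePoint (ZMod q)) :
    g1t_chi M (g1k_g hqM s t x y) *
        (g1t_D hqM (t2c_act ((s x : Gamma0 M) : SL(2, ℤ)) y) * g1t_D hpM x) = eq * ep := by
  have h := g1t_chi_coc hqM y (s x)
  calc g1t_chi M (g1k_g hqM s t x y) *
        (g1t_D hqM (t2c_act ((s x : Gamma0 M) : SL(2, ℤ)) y) * g1t_D hpM x)
      = g1t_chi M (t y) * (g1t_chi M (t2c_coc hqM y (s x)) *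
          g1t_D hqM (t2c_act ((s x : Gamma0 M) : SL(2, ℤ)) y)) * g1t_D hpM x := by
        rw [g1k_g, map_mul]
        simp only [mul_assoc]
    _ = g1t_chi M (t y) * (g1t_D hqM y * g1t_chi M (s x)) * g1t_D hpM x := by rw [← h]
    _ = (g1t_chi M (t y) * g1t_D hqM y) * (g1t_chi M (s x) * g1t_D hpM x) := by
        simp only [mul_assoc]
    _ = eq * ep := by rw [ht y, hs x]

/-- lower right entries of a plain matching -/
theorem g1k_D_match (hpM : ¬ p ∣ M) (hqM : ¬ q ∣ M) (x x' : OnePoint (ZMod p))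
    (y y' : OnePoint (ZMod q)) (δ : Gamma0 M)
    (h : heckeRep q y * heckeRep p x =
      mapGL ℝ ((δ : Gamma0 M) : SL(2, ℤ)) * (heckeRep p x' * heckeRep q y')) :
    g1t_D hqM y * g1t_D hpM x = g1t_chi M δ * (g1t_D hpM x' * g1t_D hqM y') := by
  have hp : p ≠ 0 := (Fact.out : p.Prime).ne_zero
  have hq : q ≠ 0 := (Fact.out : q.Prime).ne_zero
  have h1 : heckeRep q y * heckeRep p x * mapGL ℝ (((1 : Gamma0 M) : Gamma0 M) : SL(2, ℤ)) =
      mapGL ℝ ((δ : Gamma0 M) : SL(2, ℤ)) * (heckeRep p x' * heckeRep q y') := by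
    rw [Subgroup.coe_one, map_one, mul_one, h]
  have h2 := g1t_entry (1 : Gamma0 M) δ _ _ _ _ _ _ _ _ (t2k_val_mul hp hq x y)
    (t2k_val_mul hq hp y' x') h1
  apply Units.ext
  rw [Units.val_mul, Units.val_mul, Units.val_mul, g1t_D_val, g1t_D_val, g1t_D_val, g1t_D_val]
  rw [map_one, Units.val_one, mul_one] at h2
  push_cast at h2 ⊢
  exact h2

/-- **the twisted product systems are pairwise `SL(2,ℤ)`-inequivalent** -/
theorem g1k_sep (hpq : p ≠ q) (hqM : ¬ q ∣ M) (s : OnePoint (ZMod p) → Gamma0 M)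
    (t : OnePoint (ZMod q) → Gamma0 M) (x x' : OnePoint (ZMod p)) (y y' : OnePoint (ZMod q))
    (δ : SL(2, ℤ))
    (h : g1t_repS t y * g1t_repS s x = mapGL ℝ δ * (g1t_repS t y' * g1t_repS s x')) :
    x = x' ∧ y = y' := by
  rw [g1k_R_eq hqM s t x y, g1k_R_eq hqM s t x' y'] at h
  have h2 : heckeRep q (t2c_act ((s x : Gamma0 M) : SL(2, ℤ)) y) * heckeRep p x =
      mapGL ℝ (((g1k_g hqM s t x y : Gamma0 M) : SL(2, ℤ))⁻¹ * δ *
        ((g1k_g hqM s t x' y' : Gamma0 M) : SL(2, ℤ))) *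
        (heckeRep q (t2c_act ((s x' : Gamma0 M) : SL(2, ℤ)) y') * heckeRep p x') := by
    rw [map_mul, map_mul, map_inv]
    calc heckeRep q (t2c_act ((s x : Gamma0 M) : SL(2, ℤ)) y) * heckeRep p x
        = (mapGL ℝ ((g1k_g hqM s t x y : Gamma0 M) : SL(2, ℤ)))⁻¹ *
            (mapGL ℝ ((g1k_g hqM s t x y : Gamma0 M) : SL(2, ℤ)) *
              (heckeRep q (t2c_act ((s x : Gamma0 M) : SL(2, ℤ)) y) * heckeRep p x)) := by
          rw [inv_mul_cancel_left]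
      _ = _ := by
          rw [h]
          simp only [mul_assoc]
  obtain ⟨hx, hy⟩ := t2k_sep hpq _ _ _ _ _ h2
  subst hx
  refine ⟨rfl, ?_⟩
  exact (t2c_perm ((s x : Gamma0 M) : SL(2, ℤ))).injective hy

/-- **matching**: every `(t_y β_y)(s_x α_x)` is a `Γ₁(M)`-translate of some `(s_x' α_x')(t_y' β_y')` -/
theorem g1k_match (hpq : p ≠ q) (hpM : ¬ p ∣ M) (hqM : ¬ q ∣ M)
    {s : OnePoint (ZMod p) → Gamma0 M} {t : OnePoint (ZMod q) → Gamma0 M} {ep eq : (ZMod M)ˣ}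
    (hs : g1t_Adm hpM s ep) (ht : g1t_Adm hqM t eq) (x : OnePoint (ZMod p))
    (y : OnePoint (ZMod q)) :
    ∃ (y' : OnePoint (ZMod q)) (x' : OnePoint (ZMod p)) (τ : Gamma1 M),
      g1t_repS t y * g1t_repS s x =
        g1k_iota M τ * (g1t_repS s x' * g1t_repS t y') := by
  obtain ⟨x1, y1, m, hm⟩ := t2k_match hpq x (t2c_act ((s x : Gamma0 M) : SL(2, ℤ)) y)
  obtain ⟨x', hact⟩ : ∃ x' : OnePoint (ZMod p),
      t2c_act ((t y1 : Gamma0 M) : SL(2, ℤ)) x' = x1 :=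
    ⟨(t2c_perm ((t y1 : Gamma0 M) : SL(2, ℤ))).symm x1, by
      rw [← t2c_perm_apply, Equiv.apply_symm_apply]⟩
  obtain ⟨T0, hT0⟩ : ∃ T0 : Gamma0 M, ((T0 : Gamma0 M) : SL(2, ℤ)) = t2k_trans m :=
    ⟨⟨t2k_trans m, t2k_trans_mem M m⟩, rfl⟩
  rw [← hT0] at hm
  have hS := g1k_R_eq hpM t s y1 x'
  rw [hact] at hS
  have hR := g1k_R_eq hqM s t x y
  -- the character of the translating element
  have hchi : g1t_chi M (g1k_g hqM s t x y * T0 * (g1k_g hpM t s y1 x')⁻¹) = 1 := by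
    have h1 := g1k_chi_g hpM hqM hs ht x y
    have h2 := g1k_chi_g hqM hpM ht hs y1 x'
    rw [hact] at h2
    have h3 := g1k_D_match hpM hqM x x1 (t2c_act ((s x : Gamma0 M) : SL(2, ℤ)) y) y1 T0 hm
    rw [map_mul, map_mul, map_inv, mul_inv_eq_one]
    apply mul_right_cancel (b := g1t_D hpM x1 * g1t_D hqM y1)
    rw [h2, mul_assoc, ← h3, h1, mul_comm]
  refine ⟨y1, x', g1t_ofChi _ hchi, ?_⟩
  rw [g1k_iota_apply, g1t_ofChi_coe, hS, hR, hm, Subgroup.coe_mul, Subgroup.coe_mul,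
    Subgroup.coe_inv, map_mul, map_mul, map_inv]
  simp only [mul_assoc, inv_mul_cancel_left]

/-! ### Commutativity -/

/-- the product system: `(t_y β_y)(s_x α_x) γ = c^q_y(c^p_x γ) (t_{y'} β_{y'})(s_{x'} α_{x'})` -/
theorem g1k_spec (hpM : ¬ p ∣ M) (hqM : ¬ q ∣ M) {s : OnePoint (ZMod p) → Gamma0 M}
    {t : OnePoint (ZMod q) → Gamma0 M} {ep eq : (ZMod M)ˣ} (hs : g1t_Adm hpM s ep)
    (ht : g1t_Adm hqM t eq) (x : OnePoint (ZMod p)) (y : OnePoint (ZMod q)) (γ : Gamma1 M) :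
    g1t_repS t y * g1t_repS s x * g1k_iota M γ =
      g1k_iota M (g1t_cocG hqM ht y (g1t_cocG hpM hs x γ)) *
        (g1t_repS t (t2c_act ((g1t_cocG hpM hs x γ : Gamma1 M) : SL(2, ℤ)) y) *
          g1t_repS s (t2c_act (γ : SL(2, ℤ)) x)) := by
  rw [g1k_iota_apply, g1k_iota_apply, mul_assoc, g1t_cocG_spec hpM hs x γ, ← mul_assoc,
    g1t_cocG_spec hqM ht y (g1t_cocG hpM hs x γ), mul_assoc]

/-- the permutation of `ℙ¹(𝔽_p) × ℙ¹(𝔽_q)` attached to `γ` by the product system -/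
def g1k_perm (hpM : ¬ p ∣ M) {s : OnePoint (ZMod p) → Gamma0 M} {ep : (ZMod M)ˣ}
    (hs : g1t_Adm hpM s ep) (γ : Gamma1 M) :
    Equiv.Perm (OnePoint (ZMod p) × OnePoint (ZMod q)) :=
  Equiv.prodShear (t2c_perm (γ : SL(2, ℤ)))
    fun x => t2c_perm ((g1t_cocG hpM hs x γ : Gamma1 M) : SL(2, ℤ))

theorem g1k_TS_comm_apply (hpq : p ≠ q) (hpM : ¬ p ∣ M) (hqM : ¬ q ∣ M)
    {s : OnePoint (ZMod p) → Gamma0 M} {t : OnePoint (ZMod q) → Gamma0 M} {ep eq : (ZMod M)ˣ}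
    (hs : g1t_Adm hpM s ep) (ht : g1t_Adm hqM t eq) {A : Type*} [CommMonoid A]
    (χ : Gamma1 M →* A) (γ : Gamma1 M) :
    g1t_TS hpM hs (g1t_TS hqM ht χ) γ = g1t_TS hqM ht (g1t_TS hpM hs χ) γ := by
  classical
  choose fy fx fτ hf using fun z : OnePoint (ZMod p) × OnePoint (ZMod q) =>
    g1k_match hpq hpM hqM hs ht z.1 z.2
  set σ : OnePoint (ZMod p) × OnePoint (ZMod q) → OnePoint (ZMod q) × OnePoint (ZMod p) :=
    fun z => (fy z, fx z) with hσ
  have hmatch : ∀ z : OnePoint (ZMod p) × OnePoint (ZMod q),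
      g1t_repS t z.2 * g1t_repS s z.1 =
        g1k_iota M (fτ z) * (g1t_repS s (σ z).2 * g1t_repS t (σ z).1) := fun z => hf z
  have hsepR : ∀ (z z' : OnePoint (ZMod p) × OnePoint (ZMod q)) (δ : Gamma1 M),
      g1t_repS t z.2 * g1t_repS s z.1 =
        g1k_iota M δ * (g1t_repS t z'.2 * g1t_repS s z'.1) → z = z' := by
    intro z z' δ h
    rw [g1k_iota_apply] at h
    obtain ⟨h1, h2⟩ := g1k_sep hpq hqM s t z.1 z'.1 z.2 z'.2 _ h
    exact Prod.ext h1 h2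
  have hsepS : ∀ (w w' : OnePoint (ZMod q) × OnePoint (ZMod p)) (δ : Gamma1 M),
      g1t_repS s w.2 * g1t_repS t w.1 =
        g1k_iota M δ * (g1t_repS s w'.2 * g1t_repS t w'.1) → w = w' := by
    intro w w' δ h
    rw [g1k_iota_apply] at h
    obtain ⟨h1, h2⟩ := g1k_sep hpq.symm hpM t s w.1 w'.1 w.2 w'.2 _ h
    exact Prod.ext h1 h2
  have hinj : Function.Injective σ := by
    intro z z' h
    apply hsepR z z' (fτ z * (fτ z')⁻¹)
    rw [hmatch z, hmatch z', h, map_mul, map_inv, mul_assoc, inv_mul_cancel_left]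
  have hbij : Function.Bijective σ := by
    rw [Fintype.bijective_iff_injective_and_card]
    exact ⟨hinj, by rw [Fintype.card_prod, Fintype.card_prod, mul_comm]⟩
  have key := t2k_prod_eq (g1k_iota M)
    (fun z : OnePoint (ZMod p) × OnePoint (ZMod q) => g1t_repS t z.2 * g1t_repS s z.1)
    (fun w : OnePoint (ZMod q) × OnePoint (ZMod p) => g1t_repS s w.2 * g1t_repS t w.1)
    (fun γ => g1k_perm hpM hs γ)
    (fun γ w => (t2c_act (γ : SL(2, ℤ)) w.1,
      t2c_act ((g1t_cocG hqM ht w.1 γ : Gamma1 M) : SL(2, ℤ)) w.2))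
    (fun z γ => g1t_cocG hqM ht z.2 (g1t_cocG hpM hs z.1 γ))
    (fun w γ => g1t_cocG hpM hs w.2 (g1t_cocG hqM ht w.1 γ))
    (fun z γ => g1k_spec hpM hqM hs ht z.1 z.2 γ)
    (fun w γ => g1k_spec hqM hpM ht hs w.1 w.2 γ)
    g1k_iota_injective hsepS σ hbij fτ hmatch χ γ
  rw [g1t_TS_apply, g1t_TS_apply]
  simp only [g1t_TS_apply]
  rw [← Fintype.prod_prod_type' (f := fun x y => χ (g1t_cocG hqM ht y (g1t_cocG hpM hs x γ))),
    ← Fintype.prod_prod_type' (f := fun y x => χ (g1t_cocG hpM hs x (g1t_cocG hqM ht y γ)))]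
  exact key

variable [NeZero M]

/-- **the Hecke operators on `Hom(Γ₁(M), A)` commute** -/
theorem g1k_T_comm (hpM : ¬ p ∣ M) (hqM : ¬ q ∣ M) {A : Type*} [CommMonoid A]
    (χ : Gamma1 M →* A) :
    g1t_T hpM (g1t_T hqM χ) = g1t_T hqM (g1t_T hpM χ) := by
  by_cases hpq : p = q
  · subst hpq
    rfl
  · exact MonoidHom.ext fun γ =>
      g1k_TS_comm_apply hpq hpM hqM (g1t_s_adm hpM) (g1t_s_adm hqM) χ γ

/-- **the additive Hecke operators on `Hom(Γ₁(M), B)` commute** -/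
theorem g1k_Tadd_comm (hpM : ¬ p ∣ M) (hqM : ¬ q ∣ M) {B : Type*} [AddCommMonoid B]
    (ψ : Additive (Gamma1 M) →+ B) :
    g1t_Tadd hpM (g1t_Tadd hqM ψ) = g1t_Tadd hqM (g1t_Tadd hpM ψ) := by
  apply AddMonoidHom.toMultiplicativeRight.injective
  rw [g1t_toMul_Tadd, g1t_toMul_Tadd, g1t_toMul_Tadd, g1t_toMul_Tadd, g1k_T_comm]

/-- the Hecke operators on `H_par` commute -/
theorem g1k_Tpar_comm (hpM : ¬ p ∣ M) (hqM : ¬ q ∣ M) :
    (g1h_Tpar (M := M) hpM).comp (g1h_Tpar hqM) = (g1h_Tpar hqM).comp (g1h_Tpar hpM) := by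
  refine g1h_par_hom_ext fun x => ?_
  have hT : ∀ {r : ℕ} [Fact r.Prime] (hrM : ¬ r ∣ M),
      g1t_Tadd hrM (g1h_mkPar M) = (g1h_Tpar hrM).comp (g1h_mkPar M) := by
    intro r _ hrM
    have := g1h_comp_Tpar hrM (AddMonoidHom.id (g1h_Hpar M))
    simpa using this.symm
  have h1 := DFunLike.congr_fun (g1h_comp_Tpar hqM (g1h_Tpar hpM)) x
  have h2 := DFunLike.congr_fun (g1h_comp_Tpar hpM (g1h_Tpar hqM)) x
  simp only [AddMonoidHom.comp_apply] at h1 h2
  rw [AddMonoidHom.comp_apply, AddMonoidHom.comp_apply, h1, h2, ← hT hpM, ← hT hqM, g1k_Tadd_comm]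

/-- the Hecke operators on `H = Γ₁(M)^ab` commute -/
theorem g1k_TH_comm (hpM : ¬ p ∣ M) (hqM : ¬ q ∣ M) :
    (g1h_T (M := M) hpM).comp (g1h_T hqM) = (g1h_T hqM).comp (g1h_T hpM) := by
  refine g1h_hom_ext fun x => ?_
  have hT : ∀ {r : ℕ} [Fact r.Prime] (hrM : ¬ r ∣ M),
      g1t_Tadd hrM (g1h_of M) = (g1h_T hrM).comp (g1h_of M) := by
    intro r _ hrM
    have := g1h_comp_T hrM (AddMonoidHom.id (g1h_Ab M))
    simpa using this.symm
  have h1 := DFunLike.congr_fun (g1h_comp_T hqM (g1h_T hpM)) x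
  have h2 := DFunLike.congr_fun (g1h_comp_T hpM (g1h_T hqM)) x
  simp only [AddMonoidHom.comp_apply] at h1 h2
  rw [AddMonoidHom.comp_apply, AddMonoidHom.comp_apply, h1, h2, ← hT hpM, ← hT hqM, g1k_Tadd_comm]

end Fermat.Agent.DS
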