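/-
DS / Hecke operators for `Γ₁(M)`, part 8: the cohomological half of the weight-two
Eichler–Shimura package on `Γ₁(M)`, in the vocabulary of `DS/Seams.lean` (version 2)
(leaf [ES2-pm] of the DS-W plan).

* `g1t_Tadd_comm` : the `T_p` on `Hom(Γ₁(M), B)` commute;
* `g1t_Tadd_parTriv`, `g1t_diamAdd_parTriv` : `T_p` and `⟨d⟩` preserve `ds_ParTriv` (the classes
  vanishing on the elements of trace `2`);
* `g1t_pm M : S₂(Γ₁(M)) →ₗ[ℂ] Hom(Γ₁(M), ℂ)` the period map, `g1t_pm_injective`,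
  `g1t_pm_parTriv`;
* `g1t_pm_T_of`, `g1t_pm_diam_of` : equivariance, the operators on forms being given by their slash
  formulas (`g = ∑_x f ∣[2] g1t_rep hpM x`, `g = f ∣[2] g1t_sigma d`).
Prefix `g1t_`.
-/
import Mathlib
import Fermat.Agent.DS.Seams
import Fermat.Agent.DS.HeckeG1.Comm
import Fermat.Agent.DS.HeckeG1.PeriodHecke
import Fermat.Agent.DS.HeckeG1.PeriodPar

set_option autoImplicit false
set_option linter.unusedSectionVars false

noncomputable section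

open UpperHalfPlane hiding I
open CongruenceSubgroup Matrix.SpecialLinearGroup Function ModularForm
open P2MW.S_ModularForm_heckeT_slash_eq_self_of_mem_Gamma0.ModularForm.HeckeSlashInvariance
open scoped MatrixGroups ModularForm
open Fermat.Agent.JT3

namespace Fermat.Agent.DS

variable {M : ℕ}

/-! ### Elements of trace `2` -/

/-- powers of an element of trace `2` have trace `2` -/
theorem g1t_trace_two_pow (γ : SL(2, ℤ)) (h : (γ : Matrix (Fin 2) (Fin 2) ℤ).trace = 2)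
    (r : ℕ) : ((γ ^ r : SL(2, ℤ)) : Matrix (Fin 2) (Fin 2) ℤ).trace = 2 := by
  have key : ∀ r : ℕ, ((γ ^ r : SL(2, ℤ)) : Matrix (Fin 2) (Fin 2) ℤ).trace = 2 ∧
      ((γ ^ (r + 1) : SL(2, ℤ)) : Matrix (Fin 2) (Fin 2) ℤ).trace = 2 := by
    intro r
    induction r with
    | zero =>
      refine ⟨by simp, by rw [zero_add, pow_one]; exact h⟩
    | succ r ih =>
      refine ⟨ih.2, ?_⟩
      rw [t2e_trace_rec, h, ih.1, ih.2]
      norm_num
  exact (key r).1

theorem g1t_trace_conj (σ : Gamma0 M) (γ : Gamma1 M) :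
    (((g1t_conj σ γ : Gamma1 M) : SL(2, ℤ)) : Matrix (Fin 2) (Fin 2) ℤ).trace =
      ((γ : SL(2, ℤ)) : Matrix (Fin 2) (Fin 2) ℤ).trace := by
  rw [g1t_conj_coe, Matrix.SpecialLinearGroup.coe_mul, Matrix.SpecialLinearGroup.coe_mul,
    Matrix.trace_mul_cycle, ← Matrix.SpecialLinearGroup.coe_mul, inv_mul_cancel,
    Matrix.SpecialLinearGroup.coe_one, one_mul]

variable {p : ℕ} [Fact p.Prime]

/-- `T_p` (any admissible system of representatives) preserves the characters trivial on the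
elements of trace `2` -/
theorem g1t_TS_trace_two (hpM : ¬ p ∣ M) {s : OnePoint (ZMod p) → Gamma0 M} {e : (ZMod M)ˣ}
    (hs : g1t_Adm hpM s e) {A : Type*} [CommMonoid A] (χ : Gamma1 M →* A)
    (hχ : ∀ γ : Gamma1 M, ((γ : SL(2, ℤ)) : Matrix (Fin 2) (Fin 2) ℤ).trace = 2 → χ γ = 1)
    (γ : Gamma1 M) (hγ : ((γ : SL(2, ℤ)) : Matrix (Fin 2) (Fin 2) ℤ).trace = 2) :
    g1t_TS hpM hs χ γ = 1 := by
  rw [g1t_TS_apply]
  refine t2e_prod_eq_one_of_orbits (t2c_perm ((γ : Gamma1 M) : SL(2, ℤ)))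
    (fun x => χ (g1t_cocG hpM hs x γ)) ?_
  intro x r _ hfix
  rw [← g1t_cocG_pow]
  apply hχ
  have hfix' : t2c_act (((γ ^ r : Gamma1 M)) : SL(2, ℤ)) x = x := by
    rw [← g1t_perm_pow]; exact hfix
  rw [g1t_trace_cocG hpM hs x (γ ^ r) hfix', SubgroupClass.coe_pow]
  exact g1t_trace_two_pow _ hγ r

variable [NeZero M]

/-- **the `T_p` on `Hom(Γ₁(M), B)` commute** -/
theorem g1t_Tadd_comm {q : ℕ} [Fact q.Prime] (hpM : ¬ p ∣ M) (hqM : ¬ q ∣ M) {B : Type*}
    [AddCommMonoid B] (c : Additive (Gamma1 M) →+ B) :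
    g1t_Tadd hpM (g1t_Tadd hqM c) = g1t_Tadd hqM (g1t_Tadd hpM c) :=
  g1k_Tadd_comm hpM hqM c

/-- **`T_p` preserves the parabolic-trivial classes** -/
theorem g1t_Tadd_parTriv (hpM : ¬ p ∣ M) {B : Type*} [AddCommMonoid B]
    {c : Additive (Gamma1 M) →+ B} (hc : ds_ParTriv c) : ds_ParTriv (g1t_Tadd hpM c) := by
  intro γ hγ
  have h := g1t_TS_trace_two hpM (g1t_s_adm hpM) (AddMonoidHom.toMultiplicativeRight c)
    (fun γ hγ => by
      show Multiplicative.ofAdd (c (Additive.ofMul γ)) = 1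
      rw [hc γ hγ]; rfl) γ hγ
  have h' : g1t_T hpM (AddMonoidHom.toMultiplicativeRight c) γ = 1 := h
  rw [g1t_T_apply] at h'
  rw [g1t_Tadd_apply]
  have h2 : Multiplicative.ofAdd (∑ x : OnePoint (ZMod p), c (Additive.ofMul (g1t_coc hpM x γ)))
      = 1 := by
    rw [ofAdd_sum]
    exact h'
  exact h2

/-- **`⟨d⟩` preserves the parabolic-trivial classes** -/
theorem g1t_diamAdd_parTriv (d : (ZMod M)ˣ) {B : Type*} [AddCommMonoid B]
    {c : Additive (Gamma1 M) →+ B} (hc : ds_ParTriv c) : ds_ParTriv (g1t_diamAdd d c) := by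
  intro γ hγ
  rw [g1t_diamAdd_apply]
  exact hc _ (by rw [g1t_trace_conj]; exact hγ)

theorem g1t_smul_parTriv {R B : Type*} [AddCommMonoid B] [Monoid R] [DistribMulAction R B]
    (a : R) {c : Additive (Gamma1 M) →+ B} (hc : ds_ParTriv c) : ds_ParTriv (a • c) := by
  intro γ hγ
  rw [AddMonoidHom.smul_apply, hc γ hγ, smul_zero]

theorem g1t_add_parTriv {B : Type*} [AddCommMonoid B]
    {c c' : Additive (Gamma1 M) →+ B} (hc : ds_ParTriv c) (hc' : ds_ParTriv c') :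
    ds_ParTriv (c + c') := by
  intro γ hγ
  rw [AddMonoidHom.add_apply, hc γ hγ, hc' γ hγ, add_zero]

theorem g1t_zero_parTriv {B : Type*} [AddCommMonoid B] :
    ds_ParTriv (0 : Additive (Gamma1 M) →+ B) := fun _ _ => rfl

theorem g1t_comp_parTriv {B B' : Type*} [AddCommMonoid B] [AddCommMonoid B'] (φ : B →+ B')
    {c : Additive (Gamma1 M) →+ B} (hc : ds_ParTriv c) : ds_ParTriv (φ.comp c) := by
  intro γ hγ
  rw [AddMonoidHom.comp_apply, hc γ hγ, map_zero]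

/-! ### The period map -/

variable (M) in
/-- **the period map** `S₂(Γ₁(M)) → Hom(Γ₁(M), ℂ)`, `f ↦ (γ ↦ ∫_{z}^{γ z} f)` -/
def g1t_pm : CuspForm (Gamma1 M) 2 →ₗ[ℂ] (Additive (Gamma1 M) →+ ℂ) := g1p_periodMap M

theorem g1t_pm_eq : g1t_pm M = g1p_periodMap M := rfl

/-- **the period map is injective** -/
theorem g1t_pm_injective : Function.Injective (g1t_pm M) := by
  rw [← LinearMap.ker_eq_bot, LinearMap.ker_eq_bot']
  intro f hf
  exact g1p_periodMap_eq_zero f hf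

/-- **periods vanish on the parabolic elements** -/
theorem g1t_pm_parTriv (g : CuspForm (Gamma1 M) 2) : ds_ParTriv (g1t_pm M g) := by
  intro γ hγ
  exact g1p_periodMap_parabolic g γ (by rw [hγ]; norm_num)

/-- periods vanish on all elements with `tr² ≤ 4` -/
theorem g1t_pm_parEll (g : CuspForm (Gamma1 M) 2) (γ : Gamma1 M)
    (hγ : ((γ : SL(2, ℤ)) : Matrix (Fin 2) (Fin 2) ℤ).trace ^ 2 ≤ 4) :
    g1t_pm M g (Additive.ofMul γ) = 0 :=
  g1p_periodMap_parEll g γ hγ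

/-- **equivariance for `T_p`**, the operator on forms given by its slash formula (function form) -/
theorem g1t_pm_T_of (hpM : ¬ p ∣ M) (f g : CuspForm (Gamma1 M) 2)
    (h : (g : ℍ → ℂ) = ∑ x : OnePoint (ZMod p), (f : ℍ → ℂ) ∣[(2 : ℤ)] g1t_rep hpM x) :
    g1t_pm M g = g1t_Tadd hpM (g1t_pm M f) :=
  g1p_periodMap_T hpM f g (fun τ => by rw [h, Finset.sum_apply])

/-- **equivariance for `⟨d⟩`**, the operator on forms given by its slash formula -/
theorem g1t_pm_diam_of (d : (ZMod M)ˣ) (f g : CuspForm (Gamma1 M) 2)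
    (h : (g : ℍ → ℂ) = (f : ℍ → ℂ) ∣[(2 : ℤ)] mapGL ℝ ((g1t_sigma d : Gamma0 M) : SL(2, ℤ))) :
    g1t_pm M g = g1t_diamAdd d (g1t_pm M f) :=
  g1p_periodMap_diam d (g1t_sigma d) (g1t_chi_sigma d) f g (fun τ => by rw [h]; rfl)

/-- the same with an arbitrary `σ ∈ Γ₀(M)` of character `d` -/
theorem g1t_pm_diam_of' (d : (ZMod M)ˣ) (σ : Gamma0 M) (hσ : g1t_chi M σ = d)
    (f g : CuspForm (Gamma1 M) 2)
    (h : (g : ℍ → ℂ) = (f : ℍ → ℂ) ∣[(2 : ℤ)] mapGL ℝ ((σ : Gamma0 M) : SL(2, ℤ))) :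
    g1t_pm M g = g1t_diamAdd d (g1t_pm M f) :=
  g1p_periodMap_diam d σ hσ f g (fun τ => by rw [h]; rfl)

/-- a polynomial identity among the `T_p`, `⟨d⟩` on `Hom(Γ₁(M), ℂ)` passes to the forms: if
`pm g = 0` then `g = 0` -/
theorem g1t_pm_eq_zero_iff (g : CuspForm (Gamma1 M) 2) : g1t_pm M g = 0 ↔ g = 0 :=
  ⟨fun h => g1p_periodMap_eq_zero g h, fun h => by rw [h, map_zero]⟩

end Fermat.Agent.DS
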