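/-
DS / Hecke operators for `Γ₁(M)`, part 9: BASE CHANGE OF EIGENCLASSES (Mathlib only).

`F ⊆ k` fields, `G` a finitely generated group, `V` an `F`-vector space identified (through an
injective `F`-linear map `ev : V → Hom(G, F)`) with a space of classes containing all classes
trivial on a set `S ⊆ G`.  Then every class `c ∈ Hom(G, k)` trivial on `S` comes from a unique
element of `k ⊗_F V`, compatibly with all "natural" operators; in particular a nonzero
simultaneous eigenclass `c` gives a nonzero simultaneous eigenvector in `k ⊗_F V`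
(`g1bc_exists_eigen`).

* `g1bc_iota F k : F →+ k`;
* `g1bc_Psi ev : k ⊗[F] V →ₗ[F] (Additive G →+ k)`, `x ⊗ v ↦ x • (ι ∘ ev v)`; `g1bc_Psi_smul`
  (`k`-linearity), `g1bc_Psi_injective`, `g1bc_Psi_surjective` (onto the `S`-trivial classes);
* `g1bc_exists_eigen`.
Prefix `g1bc_`.
-/
import Mathlib

set_option autoImplicit false

noncomputable section

open TensorProduct

namespace Fermat.Agent.DS

variable (F k : Type*) [Field F] [Field k] [Algebra F k]

/-- the inclusion `F → k` as an additive map -/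
def g1bc_iota : F →+ k := (algebraMap F k).toAddMonoidHom

@[simp] theorem g1bc_iota_apply (x : F) : g1bc_iota F k x = algebraMap F k x := rfl

variable {F k} {G : Type*} [Group G] {V : Type*} [AddCommGroup V] [Module F V]

/-- the bilinear map `(x, v) ↦ x • (ι ∘ ev v)` -/
def g1bc_bil (ev : V →ₗ[F] (Additive G →+ F)) : k →ₗ[F] V →ₗ[F] (Additive G →+ k) :=
  LinearMap.mk₂ F (fun x v => x • (g1bc_iota F k).comp (ev v))
    (fun x x' v => add_smul _ _ _)
    (fun c x v => by
      refine AddMonoidHom.ext fun γ => ?_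
      simp [Algebra.smul_def, mul_assoc])
    (fun x v v' => by
      refine AddMonoidHom.ext fun γ => ?_
      simp [mul_add])
    (fun c x v => by
      refine AddMonoidHom.ext fun γ => ?_
      simp [Algebra.smul_def]
      ring)

/-- `Ψ : k ⊗[F] V → Hom(G, k)`, `x ⊗ v ↦ x • (ι ∘ ev v)` -/
def g1bc_Psi (ev : V →ₗ[F] (Additive G →+ F)) : k ⊗[F] V →ₗ[F] (Additive G →+ k) :=
  TensorProduct.lift (g1bc_bil ev)

theorem g1bc_Psi_tmul (ev : V →ₗ[F] (Additive G →+ F)) (x : k) (v : V) :
    g1bc_Psi ev (x ⊗ₜ[F] v) = x • (g1bc_iota F k).comp (ev v) := by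
  rw [g1bc_Psi, TensorProduct.lift.tmul]
  rfl

theorem g1bc_Psi_tmul_apply (ev : V →ₗ[F] (Additive G →+ F)) (x : k) (v : V) (γ : Additive G) :
    g1bc_Psi ev (x ⊗ₜ[F] v) γ = x * algebraMap F k (ev v γ) := by
  rw [g1bc_Psi_tmul]
  rfl

/-- `Ψ` is `k`-linear -/
theorem g1bc_Psi_smul (ev : V →ₗ[F] (Additive G →+ F)) (y : k) (w : k ⊗[F] V) :
    g1bc_Psi ev (y • w) = y • g1bc_Psi ev w := by
  induction w using TensorProduct.induction_on with
  | zero => simp
  | tmul x v =>
    rw [TensorProduct.smul_tmul', g1bc_Psi_tmul, g1bc_Psi_tmul, smul_eq_mul, mul_smul]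
  | add w w' hw hw' => rw [smul_add, map_add, map_add, hw, hw', smul_add]

/-- `Ψ` is injective if `ev` is -/
theorem g1bc_Psi_injective (ev : V →ₗ[F] (Additive G →+ F)) (hinj : Function.Injective ev) :
    Function.Injective (g1bc_Psi (k := k) ev) := by
  rw [injective_iff_map_eq_zero]
  intro w hw
  set ℬ := Module.Basis.ofVectorSpace F k with hℬ
  obtain ⟨b, rfl⟩ := TensorProduct.eq_repr_basis_left ℬ w
  suffices hb : b = 0 by rw [hb]; simp
  ext j
  rw [Finsupp.zero_apply]
  apply hinj
  rw [map_zero]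
  refine AddMonoidHom.ext fun γ => ?_
  rw [AddMonoidHom.zero_apply]
  -- evaluate at `γ` and use the linear independence of the basis
  have h1 : (b.sum fun i v => g1bc_Psi ev (ℬ i ⊗ₜ[F] v)) γ = 0 := by
    have := DFunLike.congr_fun hw γ
    rw [Finsupp.sum, map_sum] at this
    rw [Finsupp.sum]
    exact this
  rw [Finsupp.sum, AddMonoidHom.finsetSum_apply] at h1
  have h2 : ∑ i ∈ b.support, (ev (b i) γ) • ℬ i = 0 := by
    rw [← h1]
    refine Finset.sum_congr rfl fun i _ => ?_
    rw [g1bc_Psi_tmul_apply, Algebra.smul_def, mul_comm]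
  have h3 := linearIndependent_iff'.1 ℬ.linearIndependent b.support (fun i => ev (b i) γ) h2
  by_cases hj : j ∈ b.support
  · exact h3 j hj
  · rw [Finsupp.notMem_support_iff.1 hj, map_zero]
    rfl

/-- the values of a class `G → k`, `G` finitely generated, span a finite dimensional `F`-space -/
theorem g1bc_finite_span [Group.FG G] (c : Additive G →+ k) :
    FiniteDimensional F (Submodule.span F (Set.range c)) := by
  obtain ⟨T, hT⟩ := Group.fg_def.1 (inferInstance : Group.FG G)
  have h1 : Submodule.span F (Set.range c) =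
      Submodule.span F ((fun g : G => c (Additive.ofMul g)) '' (T : Set G)) := by
    apply le_antisymm
    · rw [Submodule.span_le]
      rintro _ ⟨γ, rfl⟩
      obtain ⟨g, rfl⟩ := Additive.ofMul.surjective γ
      have hg : g ∈ Subgroup.closure (T : Set G) := by rw [hT]; trivial
      induction hg using Subgroup.closure_induction with
      | mem x hx => exact Submodule.subset_span ⟨x, hx, rfl⟩
      | one => rw [ofMul_one, map_zero]; exact Submodule.zero_mem _
      | mul x y _ _ hx hy => rw [ofMul_mul, map_add]; exact Submodule.add_mem _ hx hy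
      | inv x _ hx => rw [ofMul_inv, map_neg]; exact Submodule.neg_mem _ hx
    · apply Submodule.span_mono
      rintro _ ⟨g, -, rfl⟩
      exact ⟨_, rfl⟩
  rw [h1]
  exact FiniteDimensional.span_of_finite F ((T.finite_toSet).image _)

/-- `Ψ` is surjective onto the classes trivial on `S` -/
theorem g1bc_Psi_surjective [Group.FG G] (ev : V →ₗ[F] (Additive G →+ F)) (S : Set G)
    (hS : ∀ φ : Additive G →+ F, (∀ s ∈ S, φ (Additive.ofMul s) = 0) → ∃ v, ev v = φ)
    (c : Additive G →+ k) (hc : ∀ s ∈ S, c (Additive.ofMul s) = 0) :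
    ∃ w : k ⊗[F] V, g1bc_Psi ev w = c := by
  have := g1bc_finite_span (F := F) c
  set U := Submodule.span F (Set.range c) with hU
  set ℬ := Module.finBasis F U with hℬ
  -- `c` with values in `U`
  have hcU : ∀ γ, c γ ∈ U := fun γ => Submodule.subset_span ⟨γ, rfl⟩
  let cU : Additive G →+ U := c.codRestrict U.toAddSubmonoid hcU
  -- the coordinate classes
  let φ : Fin (Module.finrank F U) → (Additive G →+ F) := fun j =>
    (ℬ.coord j).toAddMonoidHom.comp cU
  have hφS : ∀ j, ∀ s ∈ S, φ j (Additive.ofMul s) = 0 := by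
    intro j s hs
    have h0 : cU (Additive.ofMul s) = 0 := Subtype.ext (hc s hs)
    show ℬ.coord j (cU (Additive.ofMul s)) = 0
    rw [h0, map_zero]
  choose v hv using fun j => hS (φ j) (hφS j)
  refine ⟨∑ j, ((ℬ j : U) : k) ⊗ₜ[F] v j, ?_⟩
  refine AddMonoidHom.ext fun γ => ?_
  rw [map_sum, AddMonoidHom.finsetSum_apply]
  have h1 : ∀ j, g1bc_Psi ev (((ℬ j : U) : k) ⊗ₜ[F] v j) γ = (ℬ.coord j (cU γ)) • ((ℬ j : U) : k) := by
    intro j
    rw [g1bc_Psi_tmul_apply, hv j, Algebra.smul_def, mul_comm]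
    rfl
  rw [Finset.sum_congr rfl fun j _ => h1 j]
  have h2 := ℬ.sum_repr (cU γ)
  have h3 := congrArg (fun u : U => (u : k)) h2
  simp only [Submodule.coe_sum, Submodule.coe_smul] at h3
  exact h3

/-- **base change of eigenclasses**: a nonzero class `c : G → k`, trivial on `S`, which is a
simultaneous eigenvector of operators `τk i`, gives a nonzero simultaneous eigenvector in
`k ⊗[F] V` for the operators `TV i`, provided `ev` intertwines `TV i` with `τF i` and
`τk i (x • ι∘φ) = x • ι∘(τF i φ)`. -/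
theorem g1bc_exists_eigen [Group.FG G] (ev : V →ₗ[F] (Additive G →+ F))
    (hinj : Function.Injective ev) (S : Set G)
    (hS : ∀ φ : Additive G →+ F, (∀ s ∈ S, φ (Additive.ofMul s) = 0) → ∃ v, ev v = φ)
    {ι : Type*} (TV : ι → (V →ₗ[F] V))
    (τF : ι → (Additive G →+ F) → (Additive G →+ F))
    (τk : ι → (Additive G →+ k) →+ (Additive G →+ k))
    (he : ∀ i v, ev (TV i v) = τF i (ev v))
    (hτ : ∀ i (x : k) (φ : Additive G →+ F),
      τk i (x • (g1bc_iota F k).comp φ) = x • (g1bc_iota F k).comp (τF i φ))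
    (c : Additive G →+ k) (hc : c ≠ 0) (hcS : ∀ s ∈ S, c (Additive.ofMul s) = 0)
    (a : ι → k) (hca : ∀ i, τk i c = a i • c) :
    ∃ w : k ⊗[F] V, w ≠ 0 ∧ ∀ i, (TV i).baseChange k w = a i • w := by
  obtain ⟨w, hw⟩ := g1bc_Psi_surjective ev S hS c hcS
  refine ⟨w, ?_, fun i => ?_⟩
  · rintro rfl
    exact hc (by rw [← hw, map_zero])
  · apply g1bc_Psi_injective ev hinj
    rw [g1bc_Psi_smul, hw, ← hca i, ← hw]
    -- `Ψ ∘ (1 ⊗ TV i) = τk i ∘ Ψ`
    generalize w = w'
    induction w' using TensorProduct.induction_on with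
    | zero => simp
    | tmul x v => rw [LinearMap.baseChange_tmul, g1bc_Psi_tmul, g1bc_Psi_tmul, he, hτ]
    | add w₁ w₂ h₁ h₂ => rw [map_add, map_add, h₁, h₂, map_add, map_add]

end Fermat.Agent.DS
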